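/-
(MR) block `mrh`, sub-leaf (DEG), ABSTRACT part (prefix `mrhd`, helper18; Mathlib only).

The fundamental inequality `f ≤ n` for a Gauss-type reduction, in the polynomial form :
`A ⊂ K` a valuation ring with residue field `k`, `O ⊂ F` a subring containing `A`, `red : O → R`
a ring homomorphism compatible with `A → k`, `t ∈ O` with reduction `t̄`.  If `x̄₁ … x̄ₙ ∈ R` admit no
nontrivial relation `∑ gᵢ(t̄) x̄ᵢ = 0`, `gᵢ ∈ k[X]`, then lifts `xᵢ ∈ O` admit no nontrivial relation
`∑ Gᵢ(t) xᵢ = 0`, `Gᵢ ∈ K[X]` (scale by the coefficient of largest valuation and reduce).  Hence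
`[R : k(t̄)] ≤ [F : K(t)]` when `red` is onto and `t̄` is transcendental.
-/
import Mathlib

set_option autoImplicit false

noncomputable section

namespace Fermat.Agent.MR

open Polynomial IsLocalRing IntermediateField

/-- polynomial independence : no nontrivial relation `∑ gᵢ(t) xᵢ = 0` with `gᵢ ∈ k[X]` -/
def MrhdIndep (k : Type*) [Field k] {R : Type*} [Field R] [Algebra k R] (t : R) {n : ℕ}
    (x : Fin n → R) : Prop :=
  ∀ g : Fin n → k[X], ∑ i, aeval t (g i) * x i = 0 → g = 0

section Lin

variable {k : Type*} [Field k] {R : Type*} [Field R] [Algebra k R]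

open scoped IntermediateField.algebraAdjoinAdjoin in
/-- polynomial independence implies linear independence over `k(t)` -/
theorem MrhdIndep.linearIndependent {t : R} {n : ℕ} {x : Fin n → R} (h : MrhdIndep k t x) :
    LinearIndependent k⟮t⟯ x := by
  rw [← LinearIndependent.iff_fractionRing (Algebra.adjoin k {t}) k⟮t⟯]
  rw [Fintype.linearIndependent_iff]
  intro c hc i
  have hex : ∀ j, ∃ g : k[X], aeval t g = (c j : R) := fun j => by
    have hj : (c j : R) ∈ (aeval t : k[X] →ₐ[k] R).range := by
      rw [← Algebra.adjoin_singleton_eq_range_aeval]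
      exact (c j).2
    exact hj
  choose g hg using hex
  have h0 : ∑ j, aeval t (g j) * x j = 0 := by
    rw [← hc]
    refine Finset.sum_congr rfl fun j _ => ?_
    rw [hg j]
    rfl
  have := h g h0
  apply Subtype.ext
  rw [← hg i, this]
  simp

/-- linear independence over `k(t)` implies polynomial independence, `t` transcendental -/
theorem mrhd_indep_of_linearIndependent {t : R} (ht : Transcendental k t) {n : ℕ}
    {x : Fin n → R} (h : LinearIndependent k⟮t⟯ x) : MrhdIndep k t x := by
  intro g hg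
  rw [Fintype.linearIndependent_iff] at h
  have hmem : ∀ i, aeval t (g i) ∈ k⟮t⟯ := fun i => by
    have : (aeval t : k[X] →ₐ[k] R).range ≤ k⟮t⟯.toSubalgebra := by
      rw [← Algebra.adjoin_singleton_eq_range_aeval]
      exact IntermediateField.algebra_adjoin_le_adjoin k _
    exact this ⟨g i, rfl⟩
  have := h (fun i => ⟨aeval t (g i), hmem i⟩) (by
    rw [← hg]
    exact Finset.sum_congr rfl fun i _ => rfl)
  funext i
  have hi := congrArg Subtype.val (this i)
  exact (transcendental_iff.1 ht) (g i) hi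

end Lin

section Val

variable {K : Type*} [Field K] (A : ValuationSubring K)

/-- **scaling** : a nonzero finite family of polynomials over `K` is `c ·` a family of polynomials
over `A`, one of which has nonzero reduction. -/
theorem mrhd_scale {n : ℕ} (g : Fin n → K[X]) (hg : g ≠ 0) :
    ∃ (c : K) (Q : Fin n → (↥A)[X]), c ≠ 0 ∧ (∀ i, g i = C c * (Q i).map A.subtype) ∧
      ∃ i, (Q i).map (residue A) ≠ 0 := by
  classical
  -- the finite set of all (index, exponent) pairs with nonzero coefficient
  let S : Finset (Σ _ : Fin n, ℕ) := Finset.univ.sigma fun i => (g i).support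
  have hS : S.Nonempty := by
    by_contra hne
    apply hg
    funext i
    by_contra hi
    have hi' : g i ≠ 0 := hi
    obtain ⟨m, hm⟩ := Polynomial.support_nonempty.2 hi'
    exact hne ⟨⟨i, m⟩, Finset.mem_sigma.2 ⟨Finset.mem_univ _, hm⟩⟩
  obtain ⟨⟨i0, m0⟩, h0S, hmax⟩ :=
    Finset.exists_max_image S (fun im => A.valuation ((g im.1).coeff im.2)) hS
  have hm0 : m0 ∈ (g i0).support := (Finset.mem_sigma.1 h0S).2
  set c : K := (g i0).coeff m0 with hc
  have hc0 : c ≠ 0 := Polynomial.mem_support_iff.1 hm0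
  have hvc : A.valuation c ≠ 0 := (Valuation.ne_zero_iff _).2 hc0
  have hle : ∀ i m, A.valuation ((g i).coeff m) ≤ A.valuation c := by
    intro i m
    by_cases hm : m ∈ (g i).support
    · exact hmax ⟨i, m⟩ (Finset.mem_sigma.2 ⟨Finset.mem_univ _, hm⟩)
    · rw [Polynomial.notMem_support_iff.1 hm, map_zero]
      exact zero_le
  have hmem : ∀ i m, (g i).coeff m / c ∈ A := by
    intro i m
    rw [← A.valuation_le_one_iff, map_div₀]
    exact div_le_one_of_le₀ (hle i m) zero_le
  let a : Fin n → ℕ → ↥A := fun i m => ⟨(g i).coeff m / c, hmem i m⟩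
  let Q : Fin n → (↥A)[X] := fun i => ∑ m ∈ (g i).support, monomial m (a i m)
  have hQ : ∀ i m, (Q i).coeff m = a i m := by
    intro i m
    show (∑ m' ∈ (g i).support, monomial m' (a i m')).coeff m = a i m
    rw [Polynomial.finsetSum_coeff]
    simp only [Polynomial.coeff_monomial]
    rw [Finset.sum_ite_eq']
    split_ifs with hm
    · rfl
    · apply Subtype.ext
      show (0 : K) = (g i).coeff m / c
      rw [Polynomial.notMem_support_iff.1 hm, zero_div]
  refine ⟨c, Q, hc0, fun i => ?_, i0, fun h => ?_⟩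
  · ext m
    rw [Polynomial.coeff_C_mul, Polynomial.coeff_map, hQ]
    show (g i).coeff m = c * ((g i).coeff m / c)
    field_simp
  · have h1 := congrArg (fun q => Polynomial.coeff q m0) h
    simp only [Polynomial.coeff_map, Polynomial.coeff_zero] at h1
    rw [hQ] at h1
    have h2 : a i0 m0 = 1 := by
      apply Subtype.ext
      show (g i0).coeff m0 / c = 1
      rw [← hc, div_self hc0]
    rw [h2, map_one] at h1
    exact one_ne_zero h1

variable {F : Type*} [Field F] [Algebra K F] {R : Type*} [Field R]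
  [Algebra (ResidueField ↥A) R]

/-- the reduction of a polynomial expression `Q(t)`, `Q ∈ A[X]`, is `Q̄(t̄)` -/
theorem mrhd_red_eval (O : Subring F) (red : ↥O →+* R)
    (hι : ∀ a : ↥A, algebraMap K F (a : K) ∈ O)
    (hred : ∀ a : ↥A, red ⟨algebraMap K F (a : K), hι a⟩ =
      algebraMap (ResidueField ↥A) R (residue ↥A a))
    {t : F} (ht : t ∈ O) (Q : (↥A)[X]) :
    ∃ h : aeval t (Q.map A.subtype) ∈ O,
      red ⟨aeval t (Q.map A.subtype), h⟩ = aeval (red ⟨t, ht⟩) (Q.map (residue ↥A)) := by
  let ι : ↥A →+* F := (algebraMap K F).comp A.subtype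
  have he : ∀ Q : (↥A)[X], aeval t (Q.map A.subtype) = eval₂RingHom ι t Q := fun Q => by
    rw [aeval_def, eval₂_map, coe_eval₂RingHom]
  have hmem : ∀ Q : (↥A)[X], eval₂RingHom ι t Q ∈ O := by
    intro Q
    rw [coe_eval₂RingHom, eval₂_eq_sum_range]
    exact O.sum_mem fun i _ => O.mul_mem (hι _) (O.pow_mem ht i)
  let φ' : (↥A)[X] →+* ↥O := (eval₂RingHom ι t).codRestrict O hmem
  have hcomp : red.comp φ' =
      ((aeval (R := ResidueField ↥A) (red ⟨t, ht⟩)).toRingHom).comp
        (mapRingHom (residue ↥A)) := by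
    apply Polynomial.ringHom_ext
    · intro a
      have h1 : φ' (C a) = ⟨algebraMap K F (a : K), hι a⟩ := by
        apply Subtype.ext
        show eval₂RingHom ι t (C a) = _
        rw [coe_eval₂RingHom, eval₂_C]
        rfl
      rw [RingHom.comp_apply, h1, hred, RingHom.comp_apply, coe_mapRingHom, map_C]
      simp only [AlgHom.toRingHom_eq_coe, RingHom.coe_coe, aeval_C]
    · have h1 : φ' X = ⟨t, ht⟩ := by
        apply Subtype.ext
        show eval₂RingHom ι t X = _
        rw [coe_eval₂RingHom, eval₂_X]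
      rw [RingHom.comp_apply, h1, RingHom.comp_apply, coe_mapRingHom, map_X]
      simp only [AlgHom.toRingHom_eq_coe, RingHom.coe_coe, aeval_X]
  have hm : aeval t (Q.map A.subtype) ∈ O := by rw [he]; exact hmem Q
  refine ⟨hm, ?_⟩
  have := congrArg (fun f : (↥A)[X] →+* R => f Q) hcomp
  simp only [RingHom.comp_apply, AlgHom.toRingHom_eq_coe, RingHom.coe_coe, coe_mapRingHom] at this
  rw [← this]
  congr 1
  apply Subtype.ext
  exact he Q

/-- **lifting polynomial independence through a reduction map** -/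
theorem mrhd_indep_lift (O : Subring F) (red : ↥O →+* R)
    (hι : ∀ a : ↥A, algebraMap K F (a : K) ∈ O)
    (hred : ∀ a : ↥A, red ⟨algebraMap K F (a : K), hι a⟩ =
      algebraMap (ResidueField ↥A) R (residue ↥A a))
    {t : F} (ht : t ∈ O) {n : ℕ} (x : Fin n → F) (hx : ∀ i, x i ∈ O)
    (hind : MrhdIndep (ResidueField ↥A) (red ⟨t, ht⟩) fun i => red ⟨x i, hx i⟩) :
    MrhdIndep K t x := by
  intro g hg
  by_contra hne
  obtain ⟨c, Q, hc0, hgQ, i0, hi0⟩ := mrhd_scale A g hne
  -- divide the relation by `c`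
  have h1 : ∑ i, aeval t ((Q i).map A.subtype) * x i = 0 := by
    have h2 : algebraMap K F c * ∑ i, aeval t ((Q i).map A.subtype) * x i = 0 := by
      rw [Finset.mul_sum, ← hg]
      refine Finset.sum_congr rfl fun i _ => ?_
      rw [hgQ i, map_mul, aeval_C]
      ring
    rcases mul_eq_zero.1 h2 with h3 | h3
    · exact absurd ((map_eq_zero _).1 h3) hc0
    · exact h3
  -- reduce
  have hmemQ : ∀ i, aeval t ((Q i).map A.subtype) ∈ O := fun i =>
    (mrhd_red_eval A O red hι hred ht (Q i)).1
  have h4 : (∑ i, (⟨aeval t ((Q i).map A.subtype), hmemQ i⟩ : ↥O) * ⟨x i, hx i⟩ : ↥O) = 0 := by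
    apply Subtype.ext
    rw [Subring.coe_zero, ← h1]
    simp
  have h5 := congrArg red h4
  rw [map_sum, map_zero] at h5
  have h6 : ∑ i, aeval (red ⟨t, ht⟩) ((Q i).map (residue ↥A)) * red ⟨x i, hx i⟩ = 0 := by
    rw [← h5]
    refine Finset.sum_congr rfl fun i _ => ?_
    rw [map_mul, (mrhd_red_eval A O red hι hred ht (Q i)).2]
  have h7 := hind (fun i => (Q i).map (residue ↥A)) h6
  exact hi0 (congrFun h7 i0)

/-- **the fundamental inequality `[R : k(t̄)] ≤ [F : K(t)]`** for an ONTO reduction map with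
transcendental `t̄`. -/
theorem mrhd_finrank_le_abs (O : Subring F) (red : ↥O →+* R)
    (hι : ∀ a : ↥A, algebraMap K F (a : K) ∈ O)
    (hred : ∀ a : ↥A, red ⟨algebraMap K F (a : K), hι a⟩ =
      algebraMap (ResidueField ↥A) R (residue ↥A a))
    (hsurj : Function.Surjective red)
    {t : F} (ht : t ∈ O) (htr : Transcendental (ResidueField ↥A) (red ⟨t, ht⟩))
    [FiniteDimensional K⟮t⟯ F] :
    FiniteDimensional (ResidueField ↥A)⟮red ⟨t, ht⟩⟯ R ∧
      Module.finrank (ResidueField ↥A)⟮red ⟨t, ht⟩⟯ R ≤ Module.finrank K⟮t⟯ F := by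
  classical
  have hrank : Module.rank (ResidueField ↥A)⟮red ⟨t, ht⟩⟯ R ≤
      ((Module.finrank K⟮t⟯ F : ℕ) : Cardinal) := by
    apply rank_le
    intro s hs
    -- reindex by `Fin s.card`
    let e := s.equivFin
    let xb : Fin s.card → R := fun i => ((e.symm i : ↥s) : R)
    have hxb : LinearIndependent (ResidueField ↥A)⟮red ⟨t, ht⟩⟯ xb :=
      hs.comp _ e.symm.injective
    have hind := mrhd_indep_of_linearIndependent htr hxb
    choose y hy using fun i => hsurj (xb i)
    have hind' : MrhdIndep (ResidueField ↥A) (red ⟨t, ht⟩)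
        fun i => red ⟨(y i : F), (y i).2⟩ := by
      have : (fun i => red ⟨(y i : F), (y i).2⟩) = xb := funext fun i => hy i
      rw [this]
      exact hind
    have hup := mrhd_indep_lift A O red hι hred ht (fun i => (y i : F)) (fun i => (y i).2) hind'
    have := hup.linearIndependent.fintype_card_le_finrank
    simpa using this
  have hfin : FiniteDimensional (ResidueField ↥A)⟮red ⟨t, ht⟩⟯ R := by
    rw [FiniteDimensional, ← Module.rank_lt_aleph0_iff]
    exact lt_of_le_of_lt hrank (Cardinal.natCast_lt_aleph0)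
  exact ⟨hfin, Module.finrank_le_of_rank_le hrank⟩

end Val

end Fermat.Agent.MR
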