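/-
(MR) block `mrh`, sub-leaf (DEG) (prefix `mrhd`, helper18) : THE RESIDUE DEGREE IN CHARACTERISTIC `p`.

`k = 𝔸/𝔪` the residue field of a valuation ring `𝔸 ⊂ ℚ̄` over `p`, `F_k(N) = modularFunctionFieldFullC k N`.

* `mrhd_transcendental_j`  : `j̄` is transcendental over any field;
* `mrhd_finrank_le`        : `[F_k(M) : k(j̄)] ≤ ψ(M)` (fundamental inequality for the Gauss ring
  `grdO M 𝔸` and its reduction `grdRed`, ONTO by main's `grdl_red_surjective`; S24 `finrank_jBar`);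
* `mrhd_finrank_ge`        : `ψ(N) ≤ [F_k(N) : k(j̄)]` for `p ∤ N` (S18 `s18v_indep_jM`);
* `mrhd_finrank_j`         : `[F_k(N) : k(j̄)] = ψ(N)` for `p ∤ N`;
* **`mrhd_finrank`**       : `[F_k(M ℓ) : F_k(M)] = ℓ + 1` along `ssvmdIncl k M ℓ`, `ℓ ∤ M` prime,
  `p ∤ M ℓ`.
-/
import Mathlib
import Fermat.Agent.MR.Hecke.DegAbs
import Fermat.Agent.G.Red.Lift
import Fermat.Agent.G.Red.Gauss
import Fermat.Agent.G.Red.Inst
import Fermat.Agent.SS.Val.ModDeg
import Fermat.Agent.S18.V.DegreeDown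
import Fermat.Agent.G.Conj.Deg
import Fermat.Agent.S18.A.Const

set_option autoImplicit false
set_option linter.unusedSectionVars false
set_option linter.unusedVariables false
set_option linter.style.haveILetI false
set_option synthInstance.maxHeartbeats 400000

noncomputable section

namespace Fermat.Agent.MR

open Polynomial ModularCurve AlgebraicCurve IsLocalRing IntermediateField Fermat.Agent.S18
  Fermat.Agent.S24 Fermat.Agent.G Fermat.Agent.SS
open scoped MatrixGroups

local notation "Qb" => AlgebraicClosure ℚ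

/-- `j̄` is transcendental over any field `k` -/
theorem mrhd_transcendental_j (k : Type*) [Field k] (N : ℕ) [NeZero N] :
    Transcendental k (ssvmdJ k N) := by
  intro halg
  have h1 : IsAlgebraic k ((ssvmdJ k N : modularFunctionFieldFullC k N) : LaurentSeries k) :=
    (isAlgebraic_algebraMap_iff
      (algebraMap (modularFunctionFieldFullC k N) (LaurentSeries k)).injective).mpr halg
  have h0 : (jqModC k : LaurentSeries k) ≠ 0 := by
    intro h
    have := s18db_order_jqModC (k := k)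
    rw [h, HahnSeries.order_zero] at this
    omega
  have h2 := s18ac_order_eq_zero (jqModC k) h0 h1
  rw [s18db_order_jqModC] at h2
  omega

variable (M : ℕ) [NeZero M] {p : ℕ} [Fact p.Prime] (A : ValuationSubring Qb)

/-- the reduction of `j` is `j̄` -/
theorem mrhd_red_j :
    grdRed M A ⟨grdQ M (grdi_mem_j M), grdQ_mem_grdO M A (grdi_mem_j M)⟩ =
      ssvmdJ (ResidueField A) M := by
  rw [grdRed_grdQ]
  exact Subtype.ext (grdi_grdSer_j (ResidueField A))

/-- **`[F_k(M) : k(j̄)] ≤ ψ(M)`** : the fundamental inequality for the Gauss valuation. -/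
theorem mrhd_finrank_le :
    FiniteDimensional (ResidueField A)⟮ssvmdJ (ResidueField A) M⟯
        (modularFunctionFieldFullC (ResidueField A) M) ∧
      Module.finrank (ResidueField A)⟮ssvmdJ (ResidueField A) M⟯
        (modularFunctionFieldFullC (ResidueField A) M) ≤
        Nat.card (SL(2, ℤ) ⧸ CongruenceSubgroup.Gamma0 M) := by
  have ht : grdQ M (grdi_mem_j M) ∈ grdO M A := grdQ_mem_grdO M A (grdi_mem_j M)
  have hj : grdQ M (grdi_mem_j M) = jBar M := grdi_grdQ_j M _
  haveI : FiniteDimensional Qb⟮grdQ M (grdi_mem_j M)⟯ (modularFunctionFieldBar M) := by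
    rw [hj]
    exact finiteDimensional_jBar M
  have hred := mrhd_red_j M A
  have htr : Transcendental (ResidueField A) (grdRed M A ⟨grdQ M (grdi_mem_j M), ht⟩) := by
    rw [hred]
    exact mrhd_transcendental_j _ M
  have key := mrhd_finrank_le_abs A (grdO M A) (grdRed M A)
    (fun a => grdO_algebraMap_mem M A a) (fun a => grdRed_algebraMap M A a)
    (fun c => grdl_red_surjective M A c) ht htr
  rw [hred] at key
  refine ⟨key.1, key.2.trans ?_⟩
  rw [hj, finrank_jBar]

/-- `j̄_N` as an element of `F_k(N)` -/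
def mrhdJN (k : Type*) [Field k] (N : ℕ) [NeZero N] : modularFunctionFieldFullC k N :=
  ⟨jqNModC k N, jqModCd_mem_full k N dvd_rfl⟩

/-- the powers of `j̄_N` are polynomially independent over `k[j̄]` (S18 `s18v_indep_jM`) -/
theorem mrhd_indep_pow (k : Type*) [Field k] [CharP k p] (N : ℕ) [NeZero N] (hpN : ¬ p ∣ N) :
    MrhdIndep k (ssvmdJ k N) fun i : Fin (Nat.card (SL(2, ℤ) ⧸ CongruenceSubgroup.Gamma0 N)) =>
      mrhdJN k N ^ (i : ℕ) := by
  intro g hg
  refine s18v_indep_jM (ℓ := p) k N hpN _ le_rfl g ?_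
  have h1 := congrArg (fun z : modularFunctionFieldFullC k N => (z : LaurentSeries k)) hg
  simp only [ZeroMemClass.coe_zero] at h1
  rw [← h1]
  push_cast
  refine Finset.sum_congr rfl fun i _ => ?_
  congr 1
  exact IntermediateField.aeval_coe (modularFunctionFieldFullC k N) (ssvmdJ k N) (g i)

/-- **`ψ(N) ≤ [F_k(N) : k(j̄)]`** in characteristic `p ∤ N` -/
theorem mrhd_finrank_ge (k : Type*) [Field k] [CharP k p] (N : ℕ) [NeZero N] (hpN : ¬ p ∣ N)
    [FiniteDimensional k⟮ssvmdJ k N⟯ (modularFunctionFieldFullC k N)] :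
    Nat.card (SL(2, ℤ) ⧸ CongruenceSubgroup.Gamma0 N) ≤
      Module.finrank k⟮ssvmdJ k N⟯ (modularFunctionFieldFullC k N) := by
  have := (mrhd_indep_pow (p := p) k N hpN).linearIndependent.fintype_card_le_finrank
  simpa using this

/-- **`[F_k(N) : k(j̄)] = ψ(N)`**, `k = 𝔸/𝔪` of characteristic `p ∤ N`. -/
theorem mrhd_finrank_j (hpM : ¬ p ∣ M) (hA : A.LiesOverPrime p) :
    FiniteDimensional (ResidueField A)⟮ssvmdJ (ResidueField A) M⟯
        (modularFunctionFieldFullC (ResidueField A) M) ∧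
      Module.finrank (ResidueField A)⟮ssvmdJ (ResidueField A) M⟯
        (modularFunctionFieldFullC (ResidueField A) M) =
        Nat.card (SL(2, ℤ) ⧸ CongruenceSubgroup.Gamma0 M) := by
  haveI : CharP (ResidueField A) p := s18ac_charP A hA
  obtain ⟨hfd, hle⟩ := mrhd_finrank_le M A
  haveI := hfd
  exact ⟨hfd, le_antisymm hle (mrhd_finrank_ge (p := p) (ResidueField A) M hpM)⟩

/-- `[F_k(N) : k(j̄)] = ψ(N)` (Dedekind `ψ`) -/
theorem mrhd_finrank_psi (hpM : ¬ p ∣ M) (hA : A.LiesOverPrime p) :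
    Module.finrank (ResidueField A)⟮ssvmdJ (ResidueField A) M⟯
        (modularFunctionFieldFullC (ResidueField A) M) = dedekindPsi M := by
  rw [(mrhd_finrank_j M A hpM hA).2, ← index_Gamma0]
  rfl

/-- **(DEG) in characteristic `p` : `[F_k(M ℓ) : F_k(M)] = ℓ + 1`** along `ssvmdIncl k M ℓ`, for a
prime `ℓ ∤ M` and `p ∤ M ℓ`, `k = 𝔸/𝔪`. -/
theorem mrhd_finrank {ℓ : ℕ} [Fact ℓ.Prime] (hℓM : ¬ ℓ ∣ M) (hpMℓ : ¬ p ∣ M * ℓ)
    (hA : A.LiesOverPrime p) :
    haveI : NeZero ℓ := ⟨(Fact.out : ℓ.Prime).ne_zero⟩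
    letI := algebraAlong (ssvmdIncl (ResidueField A) M ℓ)
    Module.finrank (modularFunctionFieldFullC (ResidueField A) M)
      (modularFunctionFieldFullC (ResidueField A) (M * ℓ)) = ℓ + 1 := by
  haveI : NeZero ℓ := ⟨(Fact.out : ℓ.Prime).ne_zero⟩
  have hℓ : ℓ.Prime := Fact.out
  have hpM : ¬ p ∣ M := fun h => hpMℓ (Dvd.dvd.mul_right h ℓ)
  have htower := gcjd_finrank_tower (ssvmdIncl (ResidueField A) M ℓ)
    (ssvmdJ (ResidueField A) M) (ssvmdJ (ResidueField A) (M * ℓ))
    (Subtype.ext (ssvmdIncl_coe (ResidueField A) M ℓ _))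
  rw [mrhd_finrank_psi M A hpM hA, mrhd_finrank_psi (M * ℓ) A hpMℓ hA,
    gcjd_dedekindPsi_mul_prime M hℓ hℓM] at htower
  have hpos : 0 < dedekindPsi M := by
    rw [← mrhd_finrank_psi M A hpM hA]
    haveI := (mrhd_finrank_j M A hpM hA).1
    exact Module.finrank_pos
  exact Nat.eq_of_mul_eq_mul_left hpos htower

/-- the `≥`-form (the `hdeg` input of the abstract norm-reduction lemma) -/
theorem mrhd_le_finrank {ℓ : ℕ} [Fact ℓ.Prime] (hℓM : ¬ ℓ ∣ M) (hpMℓ : ¬ p ∣ M * ℓ)
    (hA : A.LiesOverPrime p) :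
    haveI : NeZero ℓ := ⟨(Fact.out : ℓ.Prime).ne_zero⟩
    letI := algebraAlong (ssvmdIncl (ResidueField A) M ℓ)
    ℓ + 1 ≤ Module.finrank (modularFunctionFieldFullC (ResidueField A) M)
      (modularFunctionFieldFullC (ResidueField A) (M * ℓ)) :=
  (mrhd_finrank M A hℓM hpMℓ hA).ge

/-- `F_k(M ℓ)` is finite over `F_k(M)` -/
theorem mrhd_finiteDimensional {ℓ : ℕ} [Fact ℓ.Prime] (hℓM : ¬ ℓ ∣ M) (hpMℓ : ¬ p ∣ M * ℓ)
    (hA : A.LiesOverPrime p) :
    haveI : NeZero ℓ := ⟨(Fact.out : ℓ.Prime).ne_zero⟩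
    letI := algebraAlong (ssvmdIncl (ResidueField A) M ℓ)
    FiniteDimensional (modularFunctionFieldFullC (ResidueField A) M)
      (modularFunctionFieldFullC (ResidueField A) (M * ℓ)) := by
  haveI : NeZero ℓ := ⟨(Fact.out : ℓ.Prime).ne_zero⟩
  letI := algebraAlong (ssvmdIncl (ResidueField A) M ℓ)
  have h := mrhd_finrank M A hℓM hpMℓ hA
  exact Module.finite_of_finrank_pos (by rw [h]; omega)

end Fermat.Agent.MR
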