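import Mathlib
import Fermat.Agent.G.Red.Gauss
import Fermat.Agent.SS.Val.ModFrob2
import Fermat.Agent.TT.Red2.Inst

/-!
# PROGRAM MR (S44), block `mrh` (owner helper6) : HECKE vs REDUCTION — SPEC (statements only)

`T_ℓ = (α_ℓ)_* ∘ (β_ℓ)^*` on `J₀(N)`, so the Kummer function of `T_ℓ x` is `N_α(β f)`
(`Divisor.PushforwardNormFormula`).  This block proves that the reduction maps of the Gauss
valuations commute with `N_α ∘ β` :

  `red (N_α (β f)) = N_{α_k} (β_k (red f))`.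

* `mrhNorm φ g` : the norm of `g ∈ F'` down to `F` along `φ : F →ₐ[K] F'` (`Algebra.norm` for
  `algebraAlong φ`) — THE literal "norm along" of this block;
* `MrhAbsSpec` : **(ABS)** the abstract lemma : `V ⊂ F`, `V'' ⊂ F''` valuation rings, `V'' ∩ F ⊇ V`,
  residue maps `red`, `red''` compatible with `F → F''`, `k → k''`, and
  `[k'' : k] ≥ [F'' : F]` (so `V''` is THE extension of `V`, `e = 1`) ⟹ for every `g ∈ V''` :
  `N g ∈ V` and `red (N g) = N_k (red'' g)`;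
* `MrhLevelSpec M ℓ 𝔸` : **instance (a)**, the level `M` prime to `p`, one Gauss valuation `grdO`,
  residue maps `grdRed`, `α_k = ssvmdIncl k M ℓ`, `β_k = ssvmfPhi k M ℓ` (consumer: mro-RED);
* `MrhLevelPSpec M p ℓ 𝔸 hpM h𝔸` : **instance (b)**, the level `N = M p`, the two Gauss valuations
  `V₁ = grdO (M p) 𝔸`, `V₂ = ttrV2`, residue maps `ttrRed1`, `ttrRed2` into `F_k(M)` : EXISTENCE of
  the two extensions `V₁''`, `V₂''` to `F(M p ℓ)` with residue maps into `F_k(M ℓ)` and the three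
  compatibilities (consumer: mrm/mrp (K5)).
-/

set_option autoImplicit false
set_option linter.unusedSectionVars false
set_option linter.unusedVariables false
set_option linter.style.haveILetI false
set_option synthInstance.maxHeartbeats 400000

noncomputable section

namespace Fermat.Agent.MR

open ModularCurve AlgebraicCurve IsLocalRing Fermat.Agent.S18 Fermat.Agent.S24
  Fermat.Agent.G Fermat.Agent.SS Fermat.Agent.TT

local notation "Qb" => AlgebraicClosure ℚ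

section Norm

variable {K F F' : Type*} [Field K] [Field F] [Field F'] [Algebra K F] [Algebra K F']

/-- THE NORM ALONG `φ : F →ₐ[K] F'` : `Algebra.norm F` for the algebra structure `algebraAlong φ`
(the one of `Divisor.pushforwardAlong φ` / `NormFormulaAlong`). -/
def mrhNorm (φ : F →ₐ[K] F') (g : F') : F :=
  letI := algebraAlong φ
  Algebra.norm F g

end Norm

section Abs

/-- **(ABS)** reduction commutes with the norm in a finite extension with residue degree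
`≥` the degree.  Everything is a hypothesis : the valuation-ring property of `V`, the kernel of
`red`, the surjectivity of `red''`, the two compatibilities. -/
def MrhAbsSpec : Prop :=
  ∀ (F F'' k k'' : Type) [Field F] [Field F''] [Field k] [Field k''] [Algebra F F'']
    [Algebra k k''] [FiniteDimensional F F''] [FiniteDimensional k k'']
    (V : Subring F) (hV : ∀ x : F, x ∈ V ∨ x⁻¹ ∈ V)
    (red : ↥V →+* k) (hker : ∀ x : ↥V, (x : F)⁻¹ ∉ V → red x = 0)
    (V'' : Subring F'') (red'' : ↥V'' →+* k'') (hsurj : Function.Surjective red'')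
    (hmap : ∀ x : F, x ∈ V → algebraMap F F'' x ∈ V'')
    (hcomp : ∀ (x : F) (hx : x ∈ V),
      red'' ⟨algebraMap F F'' x, hmap x hx⟩ = algebraMap k k'' (red ⟨x, hx⟩))
    (hdeg : Module.finrank F F'' ≤ Module.finrank k k''),
    ∀ (g : F'') (hg : g ∈ V''), ∃ h : Algebra.norm F g ∈ V,
      red ⟨Algebra.norm F g, h⟩ = Algebra.norm k (red'' ⟨g, hg⟩)

end Abs

section Level

variable (M ℓ : ℕ) [NeZero M] [NeZero ℓ] (A : ValuationSubring Qb)

/-- **instance (a)** : the level `M` (prime to the residue characteristic), Hecke prime `ℓ`. -/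
def MrhLevelSpec : Prop :=
  (∀ (f : modularFunctionFieldBar M) (hf : f ∈ grdO M A),
    ∃ h : heckeAlphaBar Qb M ℓ f ∈ grdO (M * ℓ) A,
      grdRed (M * ℓ) A ⟨heckeAlphaBar Qb M ℓ f, h⟩ =
        ssvmdIncl (ResidueField A) M ℓ (grdRed M A ⟨f, hf⟩)) ∧
  (∀ (f : modularFunctionFieldBar M) (hf : f ∈ grdO M A),
    ∃ h : heckeBetaBar Qb M ℓ f ∈ grdO (M * ℓ) A,
      grdRed (M * ℓ) A ⟨heckeBetaBar Qb M ℓ f, h⟩ =
        ssvmfPhi (ResidueField A) M ℓ (grdRed M A ⟨f, hf⟩)) ∧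
  (∀ (g : modularFunctionFieldBar (M * ℓ)) (hg : g ∈ grdO (M * ℓ) A),
    ∃ h : mrhNorm (heckeAlphaBar Qb M ℓ) g ∈ grdO M A,
      grdRed M A ⟨mrhNorm (heckeAlphaBar Qb M ℓ) g, h⟩ =
        mrhNorm (ssvmdIncl (ResidueField A) M ℓ) (grdRed (M * ℓ) A ⟨g, hg⟩))

/-- **the Hecke function at the level `M`** : `red (N_α (β f)) = N_{α_k} (β_k (red f))`. -/
def MrhHeckeFunSpec : Prop :=
  ∀ (f : modularFunctionFieldBar M) (hf : f ∈ grdO M A),
    ∃ h : mrhNorm (heckeAlphaBar Qb M ℓ) (heckeBetaBar Qb M ℓ f) ∈ grdO M A,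
      grdRed M A ⟨mrhNorm (heckeAlphaBar Qb M ℓ) (heckeBetaBar Qb M ℓ f), h⟩ =
        mrhNorm (ssvmdIncl (ResidueField A) M ℓ)
          (ssvmfPhi (ResidueField A) M ℓ (grdRed M A ⟨f, hf⟩))

end Level

section LevelP

variable (M : ℕ) [NeZero M] (p ℓ : ℕ) [Fact p.Prime] [NeZero p] [NeZero ℓ]
variable (A : ValuationSubring Qb)

/-- **instance (b)** : the level `N = M p`, the two Gauss valuations.  For `i = 1, 2` there is a
subring `V_i''` of `F(M p ℓ)` with a residue map `red_i'' : V_i'' → F_k(M ℓ)` such that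
`α_ℓ`, `β_ℓ` map `V_i` into `V_i''` compatibly with `α_k`, `β_k : F_k(M) → F_k(M ℓ)`, and the norm
along `α_ℓ` maps `V_i''` into `V_i` compatibly with the norm along `α_k`. -/
def MrhLevelPSpec (hpM : ¬ p ∣ M) (hA : A.LiesOverPrime p) : Prop :=
  ∃ (V₁'' V₂'' : Subring (modularFunctionFieldBar (M * p * ℓ)))
    (red₁'' : ↥V₁'' →+* ↥(modularFunctionFieldFullC (ResidueField A) (M * ℓ)))
    (red₂'' : ↥V₂'' →+* ↥(modularFunctionFieldFullC (ResidueField A) (M * ℓ))),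
    -- index 1
    (∀ (f : modularFunctionFieldBar (M * p)) (hf : f ∈ grdO (M * p) A),
      ∃ h : heckeAlphaBar Qb (M * p) ℓ f ∈ V₁'',
        red₁'' ⟨heckeAlphaBar Qb (M * p) ℓ f, h⟩ =
          ssvmdIncl (ResidueField A) M ℓ (ttrRed1 M A hA ⟨f, hf⟩)) ∧
    (∀ (f : modularFunctionFieldBar (M * p)) (hf : f ∈ grdO (M * p) A),
      ∃ h : heckeBetaBar Qb (M * p) ℓ f ∈ V₁'',
        red₁'' ⟨heckeBetaBar Qb (M * p) ℓ f, h⟩ =
          ssvmfPhi (ResidueField A) M ℓ (ttrRed1 M A hA ⟨f, hf⟩)) ∧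
    (∀ (g : modularFunctionFieldBar (M * p * ℓ)) (hg : g ∈ V₁''),
      ∃ h : mrhNorm (heckeAlphaBar Qb (M * p) ℓ) g ∈ grdO (M * p) A,
        ttrRed1 M A hA ⟨mrhNorm (heckeAlphaBar Qb (M * p) ℓ) g, h⟩ =
          mrhNorm (ssvmdIncl (ResidueField A) M ℓ) (red₁'' ⟨g, hg⟩)) ∧
    -- index 2
    (∀ (f : modularFunctionFieldBar (M * p)) (hf : f ∈ ttrV2 M A hpM),
      ∃ h : heckeAlphaBar Qb (M * p) ℓ f ∈ V₂'',
        red₂'' ⟨heckeAlphaBar Qb (M * p) ℓ f, h⟩ =
          ssvmdIncl (ResidueField A) M ℓ (ttrRed2 M A hpM hA ⟨f, hf⟩)) ∧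
    (∀ (f : modularFunctionFieldBar (M * p)) (hf : f ∈ ttrV2 M A hpM),
      ∃ h : heckeBetaBar Qb (M * p) ℓ f ∈ V₂'',
        red₂'' ⟨heckeBetaBar Qb (M * p) ℓ f, h⟩ =
          ssvmfPhi (ResidueField A) M ℓ (ttrRed2 M A hpM hA ⟨f, hf⟩)) ∧
    (∀ (g : modularFunctionFieldBar (M * p * ℓ)) (hg : g ∈ V₂''),
      ∃ h : mrhNorm (heckeAlphaBar Qb (M * p) ℓ) g ∈ ttrV2 M A hpM,
        ttrRed2 M A hpM hA ⟨mrhNorm (heckeAlphaBar Qb (M * p) ℓ) g, h⟩ =
          mrhNorm (ssvmdIncl (ResidueField A) M ℓ) (red₂'' ⟨g, hg⟩))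

/-- **the Hecke function at the level `M p`, both components** :
`red_i (N_α (β f)) = N_{α_k} (β_k (red_i f))`. -/
def MrhHeckeFunPSpec (hpM : ¬ p ∣ M) (hA : A.LiesOverPrime p) : Prop :=
  (∀ (f : modularFunctionFieldBar (M * p)) (hf : f ∈ grdO (M * p) A),
    ∃ h : mrhNorm (heckeAlphaBar Qb (M * p) ℓ) (heckeBetaBar Qb (M * p) ℓ f) ∈ grdO (M * p) A,
      ttrRed1 M A hA ⟨mrhNorm (heckeAlphaBar Qb (M * p) ℓ) (heckeBetaBar Qb (M * p) ℓ f), h⟩ =
        mrhNorm (ssvmdIncl (ResidueField A) M ℓ)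
          (ssvmfPhi (ResidueField A) M ℓ (ttrRed1 M A hA ⟨f, hf⟩))) ∧
  (∀ (f : modularFunctionFieldBar (M * p)) (hf : f ∈ ttrV2 M A hpM),
    ∃ h : mrhNorm (heckeAlphaBar Qb (M * p) ℓ) (heckeBetaBar Qb (M * p) ℓ f) ∈ ttrV2 M A hpM,
      ttrRed2 M A hpM hA
          ⟨mrhNorm (heckeAlphaBar Qb (M * p) ℓ) (heckeBetaBar Qb (M * p) ℓ f), h⟩ =
        mrhNorm (ssvmdIncl (ResidueField A) M ℓ)
          (ssvmfPhi (ResidueField A) M ℓ (ttrRed2 M A hpM hA ⟨f, hf⟩)))

end LevelP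

section Glue

variable (M : ℕ) [NeZero M] (p ℓ : ℕ) [Fact p.Prime] [NeZero p] [NeZero ℓ]
variable (A : ValuationSubring Qb)

/-- the Hecke function statement follows from the level statement (a). -/
def MrhHeckeFunOfLevelSpec : Prop := MrhLevelSpec M ℓ A → MrhHeckeFunSpec M ℓ A

/-- the Hecke function statement follows from the level statement (b). -/
def MrhHeckeFunPOfLevelSpec (hpM : ¬ p ∣ M) (hA : A.LiesOverPrime p) : Prop :=
  MrhLevelPSpec M p ℓ A hpM hA → MrhHeckeFunPSpec M p ℓ A hpM hA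

end Glue

end Fermat.Agent.MR
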