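import Mathlib
import Fermat.Agent.MR.Hecke.Spec

/-!
# PROGRAM MR (S44), block `mrh` (owner helper6) : (ABS) REDUCTION COMMUTES WITH THE NORM

`F ⊂ F''` finite, `V ⊂ F` a valuation ring with a residue map `red : V → k` killing the non-units,
`V'' ⊂ F''` a subring with a surjective `red'' : V'' → k''`, compatible with `F → F''` and
`k → k''`, and `[F'' : F] ≤ [k'' : k]`.  Then a `k`-basis of `k''` lifts to an `F`-basis `b` of `F''`
with `V'' = ⊕ V b_i`, the matrix of the multiplication by `g ∈ V''` has entries in `V` and reduces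
entrywise to the matrix of the multiplication by `red'' g` : `red (N g) = N_k (red'' g)`.
-/

set_option autoImplicit false
set_option linter.unusedSectionVars false
set_option linter.unusedVariables false
set_option linter.style.haveILetI false

noncomputable section

namespace Fermat.Agent.MR

open Module

section Abs

variable {F F'' k k'' : Type*} [Field F] [Field F''] [Field k] [Field k'']
variable [Algebra F F''] [Algebra k k'']

/-- a finite family which is not identically zero has a "largest" member : `a_i / a_j ∈ V`. -/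
theorem mrh_exists_max (V : Subring F) (hV : ∀ x : F, x ∈ V ∨ x⁻¹ ∈ V)
    {ι : Type*} [Fintype ι] (a : ι → F) (i₀ : ι) (h0 : a i₀ ≠ 0) :
    ∃ j, a j ≠ 0 ∧ ∀ i, a i / a j ∈ V := by
  let 𝒱 : ValuationSubring F := { V with mem_or_inv_mem' := hV }
  obtain ⟨j, -, hj⟩ := Finset.exists_max_image Finset.univ (fun i => 𝒱.valuation (a i))
    ⟨i₀, Finset.mem_univ _⟩
  have hj0 : a j ≠ 0 := by
    intro h
    have h1 := hj i₀ (Finset.mem_univ _)
    rw [h, map_zero] at h1
    exact h0 ((map_eq_zero _).mp (le_antisymm h1 zero_le))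
  refine ⟨j, hj0, fun i => ?_⟩
  have h1 : 𝒱.valuation (a i / a j) ≤ 1 := by
    rw [map_div₀]
    exact div_le_one_of_le₀ (hj i (Finset.mem_univ _)) zero_le
  exact (𝒱.valuation_le_one_iff _).mp h1

/-- THE CORE : if `c = red'' b` is `k`-linearly independent and `a_i / a_j ∈ V` for all `i`,
then `(Σ a_i b_i) / a_j ∈ V''` has a NONZERO reduction. -/
theorem mrh_core (V : Subring F) (red : ↥V →+* k) (V'' : Subring F'') (red'' : ↥V'' →+* k'')
    (hmap : ∀ x : F, x ∈ V → algebraMap F F'' x ∈ V'')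
    (hcomp : ∀ (x : F) (hx : x ∈ V),
      red'' ⟨algebraMap F F'' x, hmap x hx⟩ = algebraMap k k'' (red ⟨x, hx⟩))
    {ι : Type*} [Fintype ι] (b : ι → ↥V'')
    (hli : LinearIndependent k (fun i => red'' (b i)))
    (a : ι → F) (j : ι) (hj0 : a j ≠ 0) (hj : ∀ i, a i / a j ∈ V) :
    ∃ h : (∑ i, a i • (b i : F'')) * algebraMap F F'' (a j)⁻¹ ∈ V'',
      red'' ⟨(∑ i, a i • (b i : F'')) * algebraMap F F'' (a j)⁻¹, h⟩ ≠ 0 := by
  have e : (∑ i, a i • (b i : F'')) * algebraMap F F'' (a j)⁻¹ =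
      ((∑ i, (⟨algebraMap F F'' (a i / a j), hmap _ (hj i)⟩ : ↥V'') * b i : ↥V'') : F'') := by
    rw [Finset.sum_mul, AddSubmonoidClass.coe_finsetSum]
    refine Finset.sum_congr rfl fun i _ => ?_
    show a i • (b i : F'') * algebraMap F F'' (a j)⁻¹ =
      algebraMap F F'' (a i / a j) * (b i : F'')
    rw [Algebra.smul_def, div_eq_mul_inv, map_mul]
    ring
  refine ⟨e ▸ (∑ i, (⟨algebraMap F F'' (a i / a j), hmap _ (hj i)⟩ : ↥V'') * b i : ↥V'').2, ?_⟩
  have e' : (⟨(∑ i, a i • (b i : F'')) * algebraMap F F'' (a j)⁻¹,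
      e ▸ (∑ i, (⟨algebraMap F F'' (a i / a j), hmap _ (hj i)⟩ : ↥V'') * b i : ↥V'').2⟩ : ↥V'') =
      ∑ i, (⟨algebraMap F F'' (a i / a j), hmap _ (hj i)⟩ : ↥V'') * b i := Subtype.ext e
  rw [e', map_sum]
  intro h0
  have h1 : ∑ i, red ⟨a i / a j, hj i⟩ • red'' (b i) = 0 := by
    rw [← h0]
    refine Finset.sum_congr rfl fun i _ => ?_
    rw [map_mul, hcomp, Algebra.smul_def]
  have h2 := Fintype.linearIndependent_iff.mp hli _ h1 j
  have h3 : (⟨a j / a j, hj j⟩ : ↥V) = 1 := Subtype.ext (div_self hj0)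
  rw [h3, map_one] at h2
  exact one_ne_zero h2

/-- lifts of `k`-independent residues are `F`-independent. -/
theorem mrh_lift_indep (V : Subring F) (hV : ∀ x : F, x ∈ V ∨ x⁻¹ ∈ V) (red : ↥V →+* k)
    (V'' : Subring F'') (red'' : ↥V'' →+* k'')
    (hmap : ∀ x : F, x ∈ V → algebraMap F F'' x ∈ V'')
    (hcomp : ∀ (x : F) (hx : x ∈ V),
      red'' ⟨algebraMap F F'' x, hmap x hx⟩ = algebraMap k k'' (red ⟨x, hx⟩))
    {ι : Type*} [Fintype ι] (b : ι → ↥V'')
    (hli : LinearIndependent k (fun i => red'' (b i))) :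
    LinearIndependent F (fun i => (b i : F'')) := by
  rw [Fintype.linearIndependent_iff]
  intro a ha i₀
  by_contra h0
  obtain ⟨j, hj0, hj⟩ := mrh_exists_max V hV a i₀ h0
  obtain ⟨h, hne⟩ := mrh_core V red V'' red'' hmap hcomp b hli a j hj0 hj
  apply hne
  have : (⟨(∑ i, a i • (b i : F'')) * algebraMap F F'' (a j)⁻¹, h⟩ : ↥V'') = 0 :=
    Subtype.ext (by
      show (∑ i, a i • (b i : F'')) * algebraMap F F'' (a j)⁻¹ = 0
      rw [ha, zero_mul])
  rw [this, map_zero]

/-- the coefficients of an element of `V''` in a lifted residue basis lie in `V`. -/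
theorem mrh_coeff_mem (V : Subring F) (hV : ∀ x : F, x ∈ V ∨ x⁻¹ ∈ V) (red : ↥V →+* k)
    (hker : ∀ x : ↥V, (x : F)⁻¹ ∉ V → red x = 0)
    (V'' : Subring F'') (red'' : ↥V'' →+* k'')
    (hmap : ∀ x : F, x ∈ V → algebraMap F F'' x ∈ V'')
    (hcomp : ∀ (x : F) (hx : x ∈ V),
      red'' ⟨algebraMap F F'' x, hmap x hx⟩ = algebraMap k k'' (red ⟨x, hx⟩))
    {ι : Type*} [Fintype ι] (b : ι → ↥V'')
    (hli : LinearIndependent k (fun i => red'' (b i)))
    (a : ι → F) (hx : ∑ i, a i • (b i : F'') ∈ V'') : ∀ i, a i ∈ V := by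
  by_cases hall : ∀ i, a i = 0
  · intro i
    rw [hall i]
    exact V.zero_mem
  · push Not at hall
    obtain ⟨i₀, h0⟩ := hall
    obtain ⟨j, hj0, hj⟩ := mrh_exists_max V hV a i₀ h0
    obtain ⟨h, hne⟩ := mrh_core V red V'' red'' hmap hcomp b hli a j hj0 hj
    have hjV : a j ∈ V := by
      by_contra hjV
      have hinv : (a j)⁻¹ ∈ V := (hV (a j)).resolve_left hjV
      apply hne
      have e : (⟨(∑ i, a i • (b i : F'')) * algebraMap F F'' (a j)⁻¹, h⟩ : ↥V'') =
          ⟨∑ i, a i • (b i : F''), hx⟩ * ⟨algebraMap F F'' (a j)⁻¹, hmap _ hinv⟩ := rfl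
      rw [e, map_mul, hcomp _ hinv, hker ⟨(a j)⁻¹, hinv⟩ (by
        show ((a j)⁻¹)⁻¹ ∉ V
        rw [inv_inv]; exact hjV), map_zero,
        mul_zero]
    intro i
    have : a i = a i / a j * a j := by field_simp
    rw [this]
    exact V.mul_mem (hj i) hjV

variable [FiniteDimensional F F''] [FiniteDimensional k k'']

/-- **(ABS)** `red (N g) = N_k (red'' g)` for `g ∈ V''`. -/
theorem mrh_red_norm (V : Subring F) (hV : ∀ x : F, x ∈ V ∨ x⁻¹ ∈ V) (red : ↥V →+* k)
    (hker : ∀ x : ↥V, (x : F)⁻¹ ∉ V → red x = 0)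
    (V'' : Subring F'') (red'' : ↥V'' →+* k'')
    (hmap : ∀ x : F, x ∈ V → algebraMap F F'' x ∈ V'')
    (hcomp : ∀ (x : F) (hx : x ∈ V),
      red'' ⟨algebraMap F F'' x, hmap x hx⟩ = algebraMap k k'' (red ⟨x, hx⟩))
    (hsurj : Function.Surjective red'')
    (hdeg : finrank F F'' ≤ finrank k k'') (g : F'') (hg : g ∈ V'') :
    ∃ h : Algebra.norm F g ∈ V,
      red ⟨Algebra.norm F g, h⟩ = Algebra.norm k (red'' ⟨g, hg⟩) := by
  classical
  -- a residue basis and its lift
  let c : Basis (Fin (finrank k k'')) k k'' := Module.finBasis k k''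
  choose b hb using fun i => hsurj (c i)
  have hli : LinearIndependent k (fun i => red'' (b i)) := by
    have : (fun i => red'' (b i)) = c := funext hb
    rw [this]
    exact c.linearIndependent
  have hliF := mrh_lift_indep V hV red V'' red'' hmap hcomp b hli
  have hcard : Fintype.card (Fin (finrank k k'')) = finrank F F'' := by
    have h1 := hliF.fintype_card_le_finrank
    rw [Fintype.card_fin] at h1 ⊢
    omega
  haveI : Nonempty (Fin (finrank k k'')) := ⟨⟨0, Module.finrank_pos⟩⟩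
  let B : Basis (Fin (finrank k k'')) F F'' := basisOfLinearIndependentOfCardEqFinrank hliF hcard
  have hB : ∀ i, B i = (b i : F'') := fun i => by
    rw [coe_basisOfLinearIndependentOfCardEqFinrank]
  -- the matrix of the multiplication by `g` has entries in `V`
  have hmem : ∀ i j, Algebra.leftMulMatrix B g i j ∈ V := by
    intro i j
    rw [Algebra.leftMulMatrix_eq_repr_mul]
    refine mrh_coeff_mem V hV red hker V'' red'' hmap hcomp b hli
      (fun i => B.repr (g * B j) i) ?_ i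
    have h1 : ∑ i, B.repr (g * B j) i • (b i : F'') = g * B j := by
      conv_rhs => rw [← B.sum_repr (g * B j)]
      exact Finset.sum_congr rfl fun i _ => by rw [hB i]
    rw [h1, hB]
    exact V''.mul_mem hg (b j).2
  let mV : Matrix (Fin (finrank k k'')) (Fin (finrank k k'')) ↥V :=
    fun i j => ⟨Algebra.leftMulMatrix B g i j, hmem i j⟩
  have hm : Algebra.leftMulMatrix B g = V.subtype.mapMatrix mV := by
    ext i j
    rfl
  have hnorm : Algebra.norm F g = V.subtype mV.det := by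
    rw [Algebra.norm_eq_matrix_det B, hm, ← RingHom.map_det]
  refine ⟨hnorm ▸ (mV.det).2, ?_⟩
  have e : (⟨Algebra.norm F g, hnorm ▸ (mV.det).2⟩ : ↥V) = mV.det := Subtype.ext hnorm
  rw [e, RingHom.map_det, Algebra.norm_eq_matrix_det c]
  congr 1
  ext i j
  rw [RingHom.mapMatrix_apply, Matrix.map_apply, Algebra.leftMulMatrix_eq_repr_mul]
  -- `red'' g * c j = Σ_i red (mV i j) • c i`
  have h1 : (⟨g, hg⟩ : ↥V'') * b j =
      ∑ i, (⟨algebraMap F F'' (mV i j : F), hmap _ (mV i j).2⟩ : ↥V'') * b i := by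
    apply Subtype.ext
    push_cast
    have h2 : g * B j = ∑ i, B.repr (g * B j) i • B i := (B.sum_repr (g * B j)).symm
    rw [← hB j, h2]
    refine Finset.sum_congr rfl fun i _ => ?_
    rw [Algebra.smul_def, hB i]
    show _ = algebraMap F F'' (Algebra.leftMulMatrix B g i j) * _
    rw [Algebra.leftMulMatrix_eq_repr_mul]
  have h3 : red'' ⟨g, hg⟩ * c j = ∑ i, red (mV i j) • c i := by
    rw [← hb j, ← map_mul, h1, map_sum]
    refine Finset.sum_congr rfl fun i _ => ?_
    rw [map_mul, hcomp, Algebra.smul_def, hb i]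
  rw [h3, Basis.repr_sum_self]

end Abs

/-- **(ABS)** in the shape of the Spec. -/
theorem mrh_absSpec : MrhAbsSpec := by
  intro F F'' k k'' _ _ _ _ _ _ _ _ V hV red hker V'' red'' hsurj hmap hcomp hdeg g hg
  exact mrh_red_norm V hV red hker V'' red'' hmap hcomp hsurj hdeg g hg

end Fermat.Agent.MR
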