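import Mathlib
import Fermat.Agent.MR.Hecke.Spec
import Fermat.Agent.MR.Hecke.Abs
import Fermat.Agent.G.Red.Lift
import Fermat.Agent.G.Lvl.Finrank
import Fermat.Agent.G.FF.Hecke

/-!
# PROGRAM MR (S44), block `mrh` (owner helper6) : HECKE vs REDUCTION — the level maps

* `mrh_red_norm_along` : **(ABS)** in the "norm along" form (`algebraAlong φ`, `algebraAlong φk`);
* `mrh_id_mem`, `mrh_id_red` : a ring map `φ : F(N) → F(N')` which is the IDENTITY on `q`-series maps
  the Gauss ring into the Gauss ring and commutes with the reduction (series level);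
* `mrh_qexp_mem`, `mrh_qexp_red` : the same for a ring map which is `q ↦ q^ℓ` on `q`-series;
* `mrh_levelSpec` : **instance (a)** (the level `M` prime to `p`), given the residue degree
  `ℓ + 1 ≤ [F_k(M ℓ) : F_k(M)]` (block `mrhd`, helper18);
* `mrh_heckeFun_of_level`, `mrh_heckeFunSpec` : `red (N_α (β f)) = N_{α_k} (β_k (red f))`.
-/

set_option autoImplicit false
set_option linter.unusedSectionVars false
set_option linter.unusedVariables false
set_option linter.style.haveILetI false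
set_option synthInstance.maxHeartbeats 400000

noncomputable section

namespace Fermat.Agent.MR

open ModularCurve AlgebraicCurve IsLocalRing Fermat.Agent.S18 Fermat.Agent.S24
  Fermat.Agent.G Fermat.Agent.SS Fermat.Agent.TT

local notation "Qb" => AlgebraicClosure ℚ

/-! ### (ABS) along two algebra homomorphisms -/

section Along

variable {K F F'' k K1 K2 : Type*} [Field K] [Field F] [Field F''] [Field k] [Field K1] [Field K2]
  [Algebra K F] [Algebra K F''] [Algebra k K1] [Algebra k K2]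

/-- **(ABS)**, "norm along" form : `red (N_φ g) = N_{φk} (red'' g)`. -/
theorem mrh_red_norm_along (φ : F →ₐ[K] F'') (φk : K1 →ₐ[k] K2)
    (hfin : FiniteAlong K φ) (hdeg : finrankAlong K φ ≤ finrankAlong k φk)
    (V : Subring F) (hV : ∀ x : F, x ∈ V ∨ x⁻¹ ∈ V)
    (red : ↥V →+* K1) (hker : ∀ x : ↥V, (x : F)⁻¹ ∉ V → red x = 0)
    (V'' : Subring F'') (red'' : ↥V'' →+* K2) (hsurj : Function.Surjective red'')
    (hmap : ∀ x : F, x ∈ V → φ x ∈ V'')
    (hcomp : ∀ (x : F) (hx : x ∈ V), red'' ⟨φ x, hmap x hx⟩ = φk (red ⟨x, hx⟩))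
    (g : F'') (hg : g ∈ V'') :
    ∃ h : mrhNorm φ g ∈ V, red ⟨mrhNorm φ g, h⟩ = mrhNorm φk (red'' ⟨g, hg⟩) := by
  letI := algebraAlong φ
  letI := algebraAlong φk
  haveI : FiniteDimensional F F'' := hfin
  have hpos : 0 < Module.finrank F F'' := Module.finrank_pos
  have hdeg' : Module.finrank F F'' ≤ Module.finrank K1 K2 := hdeg
  haveI : FiniteDimensional K1 K2 := Module.finite_of_finrank_pos (lt_of_lt_of_le hpos hdeg')
  exact mrh_red_norm V hV red hker V'' red'' hmap hcomp hsurj hdeg' g hg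

end Along

/-! ### Ring maps between the levels which are the identity / `q ↦ q^ℓ` on `q`-series -/

section Generic

variable (N N' : ℕ) [NeZero N] [NeZero N'] (A : ValuationSubring Qb)

/-- good series go up along a map which is the identity on series -/
theorem mrh_good_id (φ : modularFunctionFieldBar N →+* modularFunctionFieldBar N')
    (hφ : ∀ x : modularFunctionFieldBar N,
      ((φ x : modularFunctionFieldBar N') : LaurentSeries Qb) = x)
    (hk : modularFunctionFieldFullC (ResidueField A) N ≤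
      modularFunctionFieldFullC (ResidueField A) N')
    {a : LaurentSeries A} (ha : S18Good N A a) : S18Good N' A a := by
  refine ⟨?_, hk ha.2⟩
  have := (φ ⟨_, ha.1⟩).2
  rw [hφ] at this
  exact this

/-- `φ f ∈ grdO N' A` -/
theorem mrh_id_mem (φ : modularFunctionFieldBar N →+* modularFunctionFieldBar N')
    (hφ : ∀ x : modularFunctionFieldBar N,
      ((φ x : modularFunctionFieldBar N') : LaurentSeries Qb) = x)
    (hk : modularFunctionFieldFullC (ResidueField A) N ≤
      modularFunctionFieldFullC (ResidueField A) N')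
    {f : modularFunctionFieldBar N} (hf : f ∈ grdO N A) : φ f ∈ grdO N' A := by
  obtain ⟨a, b, ha, hb, hb0, hx⟩ := hf
  exact ⟨a, b, mrh_good_id N N' A φ hφ hk ha, mrh_good_id N N' A φ hφ hk hb, hb0, by
    rw [hφ]; exact hx⟩

/-- `red (φ f) = red f` (as series) -/
theorem mrh_id_red (φ : modularFunctionFieldBar N →+* modularFunctionFieldBar N')
    (hφ : ∀ x : modularFunctionFieldBar N,
      ((φ x : modularFunctionFieldBar N') : LaurentSeries Qb) = x)
    (hk : modularFunctionFieldFullC (ResidueField A) N ≤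
      modularFunctionFieldFullC (ResidueField A) N')
    {f : modularFunctionFieldBar N} (hf : f ∈ grdO N A) (h : φ f ∈ grdO N' A) :
    ((grdRed N' A ⟨φ f, h⟩ : ↥(modularFunctionFieldFullC (ResidueField A) N')) :
      LaurentSeries (ResidueField A)) =
      ((grdRed N A ⟨f, hf⟩ : ↥(modularFunctionFieldFullC (ResidueField A) N)) :
        LaurentSeries (ResidueField A)) := by
  obtain ⟨a, b, ha, hb, hb0, hx⟩ := id hf
  rw [grdRed_eq N' A ⟨φ f, h⟩ a b hb0 (by rw [hφ]; exact hx),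
    grdRed_eq N A ⟨f, hf⟩ a b hb0 hx]

variable (ℓ : ℕ) [NeZero ℓ]

/-- `a(q^ℓ)` is good of level `N'` -/
theorem mrh_good_qexp (ψ : modularFunctionFieldBar N →+* modularFunctionFieldBar N')
    (hψ : ∀ x : modularFunctionFieldBar N,
      ((ψ x : modularFunctionFieldBar N') : LaurentSeries Qb) =
        qExpand Qb ℓ (x : LaurentSeries Qb))
    (hk : ∀ y : LaurentSeries (ResidueField A),
      y ∈ modularFunctionFieldFullC (ResidueField A) N →
        qExpand (ResidueField A) ℓ y ∈ modularFunctionFieldFullC (ResidueField A) N')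
    {a : LaurentSeries A} (ha : S18Good N A a) : S18Good N' A (qExpand A ℓ a) := by
  refine ⟨?_, ?_⟩
  · rw [coeffMap_qExpand]
    have := (ψ ⟨_, ha.1⟩).2
    rw [hψ] at this
    exact this
  · rw [coeffMap_qExpand]
    exact hk _ ha.2

theorem mrh_qexp_ne_zero {b : LaurentSeries A} (hb0 : coeffMap (residue A) b ≠ 0) :
    coeffMap (residue A) (qExpand A ℓ b) ≠ 0 := by
  rw [coeffMap_qExpand]
  intro h
  apply hb0
  apply qExpand_injective (N := ℓ)
  rw [h, map_zero]

/-- `ψ f ∈ grdO N' A` -/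
theorem mrh_qexp_mem (ψ : modularFunctionFieldBar N →+* modularFunctionFieldBar N')
    (hψ : ∀ x : modularFunctionFieldBar N,
      ((ψ x : modularFunctionFieldBar N') : LaurentSeries Qb) =
        qExpand Qb ℓ (x : LaurentSeries Qb))
    (hk : ∀ y : LaurentSeries (ResidueField A),
      y ∈ modularFunctionFieldFullC (ResidueField A) N →
        qExpand (ResidueField A) ℓ y ∈ modularFunctionFieldFullC (ResidueField A) N')
    {f : modularFunctionFieldBar N} (hf : f ∈ grdO N A) : ψ f ∈ grdO N' A := by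
  obtain ⟨a, b, ha, hb, hb0, hx⟩ := hf
  refine ⟨qExpand A ℓ a, qExpand A ℓ b, mrh_good_qexp N N' A ℓ ψ hψ hk ha,
    mrh_good_qexp N N' A ℓ ψ hψ hk hb, mrh_qexp_ne_zero A ℓ hb0, ?_⟩
  rw [hψ, coeffMap_qExpand, coeffMap_qExpand, ← map_mul, hx]

/-- `red (ψ f) = (red f)(q^ℓ)` (as series) -/
theorem mrh_qexp_red (ψ : modularFunctionFieldBar N →+* modularFunctionFieldBar N')
    (hψ : ∀ x : modularFunctionFieldBar N,
      ((ψ x : modularFunctionFieldBar N') : LaurentSeries Qb) =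
        qExpand Qb ℓ (x : LaurentSeries Qb))
    (hk : ∀ y : LaurentSeries (ResidueField A),
      y ∈ modularFunctionFieldFullC (ResidueField A) N →
        qExpand (ResidueField A) ℓ y ∈ modularFunctionFieldFullC (ResidueField A) N')
    {f : modularFunctionFieldBar N} (hf : f ∈ grdO N A) (h : ψ f ∈ grdO N' A) :
    ((grdRed N' A ⟨ψ f, h⟩ : ↥(modularFunctionFieldFullC (ResidueField A) N')) :
      LaurentSeries (ResidueField A)) =
      qExpand (ResidueField A) ℓ
        ((grdRed N A ⟨f, hf⟩ : ↥(modularFunctionFieldFullC (ResidueField A) N)) :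
          LaurentSeries (ResidueField A)) := by
  obtain ⟨a, b, ha, hb, hb0, hx⟩ := id hf
  rw [grdRed_eq N' A ⟨ψ f, h⟩ (qExpand A ℓ a) (qExpand A ℓ b) (mrh_qexp_ne_zero A ℓ hb0)
      (by rw [hψ, coeffMap_qExpand, coeffMap_qExpand, ← map_mul, hx]),
    grdRed_eq N A ⟨f, hf⟩ a b hb0 hx, coeffMap_qExpand, coeffMap_qExpand, map_div₀]

end Generic

/-! ### Instance (a) : the level `M` prime to the residue characteristic -/

section LevelA

variable (M ℓ : ℕ) [NeZero M] [NeZero ℓ] (A : ValuationSubring Qb)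

theorem mrh_fullC_qexp_mem (y : LaurentSeries (ResidueField A))
    (hy : y ∈ modularFunctionFieldFullC (ResidueField A) M) :
    qExpand (ResidueField A) ℓ y ∈ modularFunctionFieldFullC (ResidueField A) (M * ℓ) :=
  full_degeneracyC_map_le (ResidueField A) M ℓ ⟨y, hy, rfl⟩

/-- (α) at the level `M` -/
theorem mrh_level_alpha (f : modularFunctionFieldBar M) (hf : f ∈ grdO M A) :
    ∃ h : heckeAlphaBar Qb M ℓ f ∈ grdO (M * ℓ) A,
      grdRed (M * ℓ) A ⟨heckeAlphaBar Qb M ℓ f, h⟩ =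
        ssvmdIncl (ResidueField A) M ℓ (grdRed M A ⟨f, hf⟩) := by
  have hk := full_degeneracyC_le (ResidueField A) (dvd_mul_right M ℓ)
  have h := mrh_id_mem M (M * ℓ) A (heckeAlphaBar Qb M ℓ).toRingHom
    (fun x => coe_heckeAlphaBar M ℓ x) hk hf
  refine ⟨h, Subtype.ext ?_⟩
  rw [ssvmdIncl_coe]
  exact mrh_id_red M (M * ℓ) A (heckeAlphaBar Qb M ℓ).toRingHom
    (fun x => coe_heckeAlphaBar M ℓ x) hk hf h

/-- (β) at the level `M` -/
theorem mrh_level_beta (f : modularFunctionFieldBar M) (hf : f ∈ grdO M A) :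
    ∃ h : heckeBetaBar Qb M ℓ f ∈ grdO (M * ℓ) A,
      grdRed (M * ℓ) A ⟨heckeBetaBar Qb M ℓ f, h⟩ =
        ssvmfPhi (ResidueField A) M ℓ (grdRed M A ⟨f, hf⟩) := by
  have h := mrh_qexp_mem M (M * ℓ) A ℓ (heckeBetaBar Qb M ℓ).toRingHom
    (fun x => coe_heckeBetaBar M ℓ x) (mrh_fullC_qexp_mem M ℓ A) hf
  refine ⟨h, Subtype.ext ?_⟩
  rw [ssvmfPhi_coe]
  exact mrh_qexp_red M (M * ℓ) A ℓ (heckeBetaBar Qb M ℓ).toRingHom
    (fun x => coe_heckeBetaBar M ℓ x) (mrh_fullC_qexp_mem M ℓ A) hf h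

variable {p : ℕ} [Fact p.Prime]

/-- (N) at the level `M` : the norm along `α_ℓ` commutes with the reduction, given the residue
degree `[F_k(M ℓ) : F_k(M)] ≥ ℓ + 1`. -/
theorem mrh_level_norm (hpM : ¬ p ∣ M) (hA : A.LiesOverPrime p) (hℓ : ℓ.Prime) (hℓM : ¬ ℓ ∣ M)
    (hdeg : ℓ + 1 ≤ finrankAlong (ResidueField A) (ssvmdIncl (ResidueField A) M ℓ))
    (g : modularFunctionFieldBar (M * ℓ)) (hg : g ∈ grdO (M * ℓ) A) :
    ∃ h : mrhNorm (heckeAlphaBar Qb M ℓ) g ∈ grdO M A,
      grdRed M A ⟨mrhNorm (heckeAlphaBar Qb M ℓ) g, h⟩ =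
        mrhNorm (ssvmdIncl (ResidueField A) M ℓ) (grdRed (M * ℓ) A ⟨g, hg⟩) := by
  refine mrh_red_norm_along (heckeAlphaBar Qb M ℓ) (ssvmdIncl (ResidueField A) M ℓ)
    (gff_alpha_finite M ℓ) (by rw [glv_finrank M ℓ hℓ hℓM]; exact hdeg)
    (grdO M A) (grdO_mem_or_inv_mem M A hpM hA) (grdRed M A) ?_ (grdO (M * ℓ) A)
    (grdRed (M * ℓ) A) ?_ (fun x hx => (mrh_level_alpha M ℓ A x hx).1) ?_ g hg
  · intro x hx
    by_contra h0
    exact hx (grdl_inv_mem M A x h0)
  · intro c
    exact grdl_red_surjective (M * ℓ) A c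
  · intro x hx
    exact (mrh_level_alpha M ℓ A x hx).2

/-- **instance (a)** of the Spec. -/
theorem mrh_levelSpec (hpM : ¬ p ∣ M) (hA : A.LiesOverPrime p) (hℓ : ℓ.Prime) (hℓM : ¬ ℓ ∣ M)
    (hdeg : ℓ + 1 ≤ finrankAlong (ResidueField A) (ssvmdIncl (ResidueField A) M ℓ)) :
    MrhLevelSpec M ℓ A :=
  ⟨mrh_level_alpha M ℓ A, mrh_level_beta M ℓ A, mrh_level_norm M ℓ A hpM hA hℓ hℓM hdeg⟩

/-- the Hecke function statement from the level statement. -/
theorem mrh_heckeFun_of_level : MrhHeckeFunOfLevelSpec M ℓ A := by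
  rintro ⟨-, hβ, hN⟩ f hf
  obtain ⟨h1, e1⟩ := hβ f hf
  obtain ⟨h2, e2⟩ := hN _ h1
  exact ⟨h2, by rw [e2, e1]⟩

/-- **the Hecke function at the level `M`** : `red (N_α (β f)) = N_{α_k} (β_k (red f))`. -/
theorem mrh_heckeFunSpec (hpM : ¬ p ∣ M) (hA : A.LiesOverPrime p) (hℓ : ℓ.Prime) (hℓM : ¬ ℓ ∣ M)
    (hdeg : ℓ + 1 ≤ finrankAlong (ResidueField A) (ssvmdIncl (ResidueField A) M ℓ)) :
    MrhHeckeFunSpec M ℓ A :=
  mrh_heckeFun_of_level M ℓ A (mrh_levelSpec M ℓ A hpM hA hℓ hℓM hdeg)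

end LevelA

end Fermat.Agent.MR
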