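import Mathlib
import Fermat.Agent.MR.Hecke.Level
import Fermat.Agent.MR.Hecke.Deg

/-!
# PROGRAM MR (S44), block `mrh` : the residue degree plugged into instance (a)

`mrh_levelSpec` / `mrh_heckeFunSpec` (helper6, `MR/Hecke/Level.lean`) take the residue degree
`ℓ + 1 ≤ [F_k(M ℓ) : F_k(M)]` as a hypothesis ; `mrhd_le_finrank` (`MR/Hecke/Deg.lean`) proves it.
Here the two are combined : **instance (a) with no degree hypothesis left**.
-/

set_option autoImplicit false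
set_option linter.unusedSectionVars false
set_option linter.unusedVariables false
set_option linter.style.haveILetI false

noncomputable section

namespace Fermat.Agent.MR

open ModularCurve AlgebraicCurve IsLocalRing Fermat.Agent.S18 Fermat.Agent.S24
  Fermat.Agent.G Fermat.Agent.SS Fermat.Agent.TT

local notation "Qb" => AlgebraicClosure ℚ

variable (M ℓ : ℕ) [NeZero M] [NeZero ℓ] (A : ValuationSubring Qb) {p : ℕ} [Fact p.Prime]

/-- the degree hypothesis of `mrh_levelSpec`, in its literal `finrankAlong` form -/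
theorem mrhd_hdeg (hℓ : ℓ.Prime) (hℓM : ¬ ℓ ∣ M) (hpMℓ : ¬ p ∣ M * ℓ) (hA : A.LiesOverPrime p) :
    ℓ + 1 ≤ finrankAlong (ResidueField A) (ssvmdIncl (ResidueField A) M ℓ) := by
  haveI : Fact ℓ.Prime := ⟨hℓ⟩
  exact mrhd_le_finrank M A hℓM hpMℓ hA

/-- the equality form -/
theorem mrhd_finrankAlong (hℓ : ℓ.Prime) (hℓM : ¬ ℓ ∣ M) (hpMℓ : ¬ p ∣ M * ℓ)
    (hA : A.LiesOverPrime p) :
    finrankAlong (ResidueField A) (ssvmdIncl (ResidueField A) M ℓ) = ℓ + 1 := by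
  haveI : Fact ℓ.Prime := ⟨hℓ⟩
  exact mrhd_finrank M A hℓM hpMℓ hA

/-- **instance (a)**, closed : the level maps `α_ℓ`, `β_ℓ` and the norm along `α_ℓ` commute with the
Gauss reduction at a level `M` prime to `p`, for a prime `ℓ ∤ M`, `ℓ ≠ p`. -/
theorem mrhd_levelSpec (hA : A.LiesOverPrime p) (hℓ : ℓ.Prime) (hℓM : ¬ ℓ ∣ M)
    (hpMℓ : ¬ p ∣ M * ℓ) : MrhLevelSpec M ℓ A :=
  mrh_levelSpec M ℓ A (fun h => hpMℓ (Dvd.dvd.mul_right h ℓ)) hA hℓ hℓM
    (mrhd_hdeg M ℓ A hℓ hℓM hpMℓ hA)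

/-- **the Hecke function at the level `M`**, closed :
`red (N_α (β f)) = N_{α_k} (β_k (red f))`. -/
theorem mrhd_heckeFunSpec (hA : A.LiesOverPrime p) (hℓ : ℓ.Prime) (hℓM : ¬ ℓ ∣ M)
    (hpMℓ : ¬ p ∣ M * ℓ) : MrhHeckeFunSpec M ℓ A :=
  mrh_heckeFunSpec M ℓ A (fun h => hpMℓ (Dvd.dvd.mul_right h ℓ)) hA hℓ hℓM
    (mrhd_hdeg M ℓ A hℓ hℓM hpMℓ hA)

end Fermat.Agent.MR
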