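import Mathlib
import Fermat.Agent.MR.Hecke.Deg
import Fermat.Agent.MR.Hecke.Level
import Fermat.Agent.MR.Hecke.DegPlug
import Fermat.Agent.S35.AuxLvl.DegBeta
import Fermat.Agent.S36.AuxNew2.Abs
import Fermat.Agent.S36.AuxNew2.Deg

/-!
# PROGRAM MR (S44), block `mrh`, sub-leaf (DEG-β) (prefix `mrhdb`, helper6) :
# THE RESIDUE DEGREE OF `β̄` IN CHARACTERISTIC `p`

`k = 𝔸/𝔪`, `F_k(N) = modularFunctionFieldFullC k N`, `ᾱ_N = ssvmdIncl k N ℓ` (the inclusion),
`β̄_N = mrhdbBe k N ℓ` (`f(q) ↦ f(q^ℓ)`, the `k`-algebra homomorphism underlying `ssvmfPhi k N ℓ`).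

* `mrhdb_finrankAlong_comp` : degrees are multiplicative in towers;
* `mrhdb_comm` : `ᾱ_{N ℓ} ∘ β̄_N = β̄_{N ℓ} ∘ ᾱ_N`;
* `mrhdb_alpha_of_dvd` : `deg ᾱ_N = ℓ` for a prime `ℓ ∣ N`, `p ∤ N ℓ`;
* `mrhdb_beta_finite`, `mrhdb_le_beta` : `β̄_N` is finite of degree `≥ ℓ` (`1, j̄, …, j̄^{ℓ-1}` are
  independent over `β̄ F_k(N) ⊂ k((q^ℓ))`);
* **`mrhdb_hdeg`** : `ℓ + 1 ≤ deg β̄_M` for a prime `ℓ ∤ M`, `p ∤ M ℓ` (helper18's two-tower route);
* `mrhdb_finrankAlong` : `deg β̄_M = ℓ + 1`.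
-/

set_option autoImplicit false
set_option linter.unusedSectionVars false
set_option linter.unusedVariables false
set_option linter.style.haveILetI false
set_option synthInstance.maxHeartbeats 400000

noncomputable section

namespace Fermat.Agent.MR

open Polynomial ModularCurve AlgebraicCurve IsLocalRing IntermediateField Fermat.Agent.S18
  Fermat.Agent.S24 Fermat.Agent.G Fermat.Agent.SS

local notation "Qb" => AlgebraicClosure ℚ

/-! ### `β̄` as a `k`-algebra homomorphism -/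

section Beta

variable (k : Type*) [Field k] (N ℓ : ℕ) [NeZero N] [NeZero ℓ]

/-- `β̄ : F_k(N) → F_k(N ℓ)`, `x ↦ x(q^ℓ)`, as a `k`-algebra homomorphism. -/
def mrhdbBe : modularFunctionFieldFullC k N →ₐ[k] modularFunctionFieldFullC k (N * ℓ) :=
  { ssvmfPhi k N ℓ with
    commutes' := fun a => Subtype.ext <| by
      show qExpand k ℓ (algebraMap k (LaurentSeries k) a) = algebraMap k (LaurentSeries k) a
      rw [algebraMap_laurentSeries_eq_single, qExpand_single, mul_zero] }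

theorem mrhdbBe_coe (x : modularFunctionFieldFullC k N) :
    ((mrhdbBe k N ℓ x : modularFunctionFieldFullC k (N * ℓ)) : LaurentSeries k) =
      qExpand k ℓ (x : LaurentSeries k) := rfl

theorem mrhdbBe_apply (x : modularFunctionFieldFullC k N) :
    mrhdbBe k N ℓ x = ssvmfPhi k N ℓ x := rfl

/-- `ᾱ_{N ℓ} ∘ β̄_N = β̄_{N ℓ} ∘ ᾱ_N` -/
theorem mrhdb_comm :
    (ssvmdIncl k (N * ℓ) ℓ).comp (mrhdbBe k N ℓ) =
      (mrhdbBe k (N * ℓ) ℓ).comp (ssvmdIncl k N ℓ) := by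
  apply AlgHom.ext
  intro x
  apply Subtype.ext
  rw [AlgHom.comp_apply, AlgHom.comp_apply, ssvmdIncl_coe, mrhdbBe_coe, mrhdbBe_coe, ssvmdIncl_coe]

end Beta

/-! ### Degrees in towers -/

section Tower

variable {K F F' F'' : Type*} [Field K] [Field F] [Field F'] [Field F''] [Algebra K F]
  [Algebra K F'] [Algebra K F'']

theorem mrhdb_finrankAlong_comp (φ : F →ₐ[K] F') (ψ : F' →ₐ[K] F'') :
    finrankAlong K (ψ.comp φ) = finrankAlong K φ * finrankAlong K ψ := by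
  letI := algebraAlong φ
  letI := algebraAlong ψ
  letI : Algebra F F'' := algebraAlong (ψ.comp φ)
  haveI : IsScalarTower F F' F'' := IsScalarTower.of_algebraMap_eq (fun x => rfl)
  exact (Module.finrank_mul_finrank F F' F'').symm

end Tower

/-! ### The degree of `ᾱ_N` for `ℓ ∣ N` -/

section AlphaDvd

variable (N : ℕ) [NeZero N] {p : ℕ} [Fact p.Prime] (A : ValuationSubring Qb) (ℓ : ℕ) [NeZero ℓ]

theorem mrhdb_psi_pos (hpN : ¬ p ∣ N) (hA : A.LiesOverPrime p) : 0 < dedekindPsi N := by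
  rw [← mrhd_finrank_psi N A hpN hA]
  haveI := (mrhd_finrank_j N A hpN hA).1
  exact Module.finrank_pos

/-- `[F_k(N ℓ) : F_k(N)] = ℓ` for a prime `ℓ ∣ N`, `p ∤ N ℓ`. -/
theorem mrhdb_alpha_of_dvd (hℓ : ℓ.Prime) (hℓN : ℓ ∣ N) (hpNℓ : ¬ p ∣ N * ℓ)
    (hA : A.LiesOverPrime p) :
    finrankAlong (ResidueField A) (ssvmdIncl (ResidueField A) N ℓ) = ℓ := by
  have hpN : ¬ p ∣ N := fun h => hpNℓ (Dvd.dvd.mul_right h ℓ)
  have htower := gcjd_finrank_tower (ssvmdIncl (ResidueField A) N ℓ)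
    (ssvmdJ (ResidueField A) N) (ssvmdJ (ResidueField A) (N * ℓ))
    (Subtype.ext (ssvmdIncl_coe (ResidueField A) N ℓ _))
  rw [mrhd_finrank_psi N A hpN hA, mrhd_finrank_psi (N * ℓ) A hpNℓ hA,
    s36e_dedekindPsi_mul_of_dvd (NeZero.ne N) hℓ hℓN] at htower
  exact Nat.eq_of_mul_eq_mul_left (mrhdb_psi_pos N A hpN hA) htower

end AlphaDvd

/-! ### `β̄_N` is finite of degree `≥ ℓ` -/

section BetaGe

variable (N ℓ : ℕ) [NeZero N] [NeZero ℓ] (A : ValuationSubring Qb)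

/-- `β̄ j̄` is transcendental -/
theorem mrhdb_transcendental (k : Type*) [Field k] :
    Transcendental k (mrhdbBe k N ℓ (ssvmdJ k N)) := by
  intro h
  exact mrhd_transcendental_j k N
    ((isAlgebraic_algHom_iff (mrhdbBe k N ℓ) (mrhdbBe k N ℓ).toRingHom.injective).1 h)

/-- `F_k(N ℓ)` is finite over `β̄ F_k(N)` -/
theorem mrhdb_beta_finite :
    FiniteAlong (ResidueField A) (mrhdbBe (ResidueField A) N ℓ) := by
  have hj : jBar N ∈ grdO N A := by
    rw [← grdi_grdQ_j N (grdi_mem_j N)]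
    exact grdQ_mem_grdO N A (grdi_mem_j N)
  have hredj : grdRed N A ⟨jBar N, hj⟩ = ssvmdJ (ResidueField A) N := by
    rw [← mrhd_red_j N A]
    congr 1
    exact Subtype.ext (grdi_grdQ_j N (grdi_mem_j N)).symm
  obtain ⟨ht, hred⟩ := mrh_level_beta N ℓ A (jBar N) hj
  rw [hredj] at hred
  haveI : FiniteDimensional Qb⟮heckeBetaBar Qb N ℓ (jBar N)⟯ (modularFunctionFieldBar (N * ℓ)) :=
    (gff_isSepGen_beta N ℓ).finite
  have htr : Transcendental (ResidueField A)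
      (grdRed (N * ℓ) A ⟨heckeBetaBar Qb N ℓ (jBar N), ht⟩) := by
    rw [hred]
    exact mrhdb_transcendental N ℓ (ResidueField A)
  have key := mrhd_finrank_le_abs A (grdO (N * ℓ) A) (grdRed (N * ℓ) A)
    (fun a => grdO_algebraMap_mem (N * ℓ) A a) (fun a => grdRed_algebraMap (N * ℓ) A a)
    (fun c => grdl_red_surjective (N * ℓ) A c) ht htr
  rw [hred] at key
  haveI := key.1
  have htower := gcjd_finrank_tower (mrhdbBe (ResidueField A) N ℓ)
    (ssvmdJ (ResidueField A) N) (ssvmfPhi (ResidueField A) N ℓ (ssvmdJ (ResidueField A) N)) rfl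
  have hpos : 0 < Module.finrank
      (ResidueField A)⟮ssvmfPhi (ResidueField A) N ℓ (ssvmdJ (ResidueField A) N)⟯
      (modularFunctionFieldFullC (ResidueField A) (N * ℓ)) := Module.finrank_pos
  letI := algebraAlong (mrhdbBe (ResidueField A) N ℓ)
  rw [← htower] at hpos
  exact Module.finite_of_finrank_pos (Nat.pos_of_mul_pos_left hpos)

/-- `ℓ ≤ [F_k(N ℓ) : β̄ F_k(N)]` : the powers `1, j̄, …, j̄^{ℓ-1}` are independent over
`β̄ F_k(N) ⊂ k((q^ℓ))`. -/
theorem mrhdb_le_beta :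
    ℓ ≤ finrankAlong (ResidueField A) (mrhdbBe (ResidueField A) N ℓ) := by
  letI := algebraAlong (mrhdbBe (ResidueField A) N ℓ)
  haveI : Module.Finite (modularFunctionFieldFullC (ResidueField A) N)
      (modularFunctionFieldFullC (ResidueField A) (N * ℓ)) := mrhdb_beta_finite N ℓ A
  have hli : LinearIndependent (modularFunctionFieldFullC (ResidueField A) N)
      (fun i : Fin ℓ => (ssvmdJ (ResidueField A) (N * ℓ)) ^ (i : ℕ)) := by
    refine s36e_linearIndependent_pow (K := ResidueField A)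
      (modularFunctionFieldFullC (ResidueField A) (N * ℓ)).val.toRingHom
      (fun g => ?_) (ssvmdJ (ResidueField A) (N * ℓ)) ?_ ?_
    · intro m hm
      exact qExpand_coeff_of_not_dvd ℓ _ hm
    · intro h0
      exact (mrhd_transcendental_j (ResidueField A) (N * ℓ)) (h0 ▸ isAlgebraic_zero)
    · have : ((modularFunctionFieldFullC (ResidueField A) (N * ℓ)).val.toRingHom
          (ssvmdJ (ResidueField A) (N * ℓ))).order = -1 := s18db_order_jqModC
      rw [this]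
      exact (isCoprime_one_left).neg_left
  have := hli.fintype_card_le_finrank
  rwa [Fintype.card_fin] at this

end BetaGe

/-! ### The fundamental inequality along two algebra homomorphisms -/

section FundIneq

variable {K F F'' k K1 K2 : Type*} [Field K] [Field F] [Field F''] [Field k] [Field K1] [Field K2]
  [Algebra K F] [Algebra K F''] [Algebra k K1] [Algebra k K2]

/-- the residue degree is at most the degree. -/
theorem mrhdb_finrankAlong_le (φ : F →ₐ[K] F'') (φk : K1 →ₐ[k] K2)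
    (hfin : FiniteAlong K φ) (hfink : FiniteAlong k φk)
    (V : Subring F) (hV : ∀ x : F, x ∈ V ∨ x⁻¹ ∈ V) (red : ↥V →+* K1)
    (V'' : Subring F'') (red'' : ↥V'' →+* K2) (hsurj : Function.Surjective red'')
    (hmap : ∀ x : F, x ∈ V → φ x ∈ V'')
    (hcomp : ∀ (x : F) (hx : x ∈ V), red'' ⟨φ x, hmap x hx⟩ = φk (red ⟨x, hx⟩)) :
    finrankAlong k φk ≤ finrankAlong K φ := by
  letI := algebraAlong φ
  letI := algebraAlong φk
  haveI : FiniteDimensional F F'' := hfin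
  haveI : FiniteDimensional K1 K2 := hfink
  let c : Module.Basis (Fin (Module.finrank K1 K2)) K1 K2 := Module.finBasis K1 K2
  choose b hb using fun i => hsurj (c i)
  have hli : LinearIndependent K1 (fun i => red'' (b i)) := by
    have : (fun i => red'' (b i)) = c := funext hb
    rw [this]
    exact c.linearIndependent
  have hliF := mrh_lift_indep V hV red V'' red'' hmap hcomp b hli
  have := hliF.fintype_card_le_finrank
  rwa [Fintype.card_fin] at this

end FundIneq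

/-! ### The degree of `β̄_M` for `ℓ ∤ M` -/

section Main

variable (M : ℕ) [NeZero M] {p : ℕ} [Fact p.Prime] (A : ValuationSubring Qb) (ℓ : ℕ) [NeZero ℓ]

/-- **(DEG-β) in characteristic `p`, `≥`** : `ℓ + 1 ≤ [F_k(M ℓ) : β̄ F_k(M)]` for a prime `ℓ ∤ M`,
`p ∤ M ℓ`. -/
theorem mrhdb_hdeg (hℓ : ℓ.Prime) (hℓM : ¬ ℓ ∣ M) (hpMℓ : ¬ p ∣ M * ℓ) (hA : A.LiesOverPrime p) :
    ℓ + 1 ≤ finrankAlong (ResidueField A) (mrhdbBe (ResidueField A) M ℓ) := by
  have hpMℓℓ : ¬ p ∣ M * ℓ * ℓ := by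
    intro h
    have hp : p.Prime := Fact.out
    rcases (Nat.Prime.dvd_mul hp).1 h with h1 | h1
    · exact hpMℓ h1
    · exact hpMℓ (Dvd.dvd.mul_left h1 M)
  have h1 := mrhdb_finrankAlong_comp (mrhdbBe (ResidueField A) M ℓ)
    (ssvmdIncl (ResidueField A) (M * ℓ) ℓ)
  have h2 := mrhdb_finrankAlong_comp (ssvmdIncl (ResidueField A) M ℓ)
    (mrhdbBe (ResidueField A) (M * ℓ) ℓ)
  rw [mrhdb_comm, h2, mrhd_finrankAlong M ℓ A hℓ hℓM hpMℓ hA,
    mrhdb_alpha_of_dvd (M * ℓ) A ℓ hℓ (dvd_mul_left ℓ M) hpMℓℓ hA] at h1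
  have h3 := mrhdb_le_beta (M * ℓ) ℓ A
  have hpos : 0 < ℓ := hℓ.pos
  have h4 : (ℓ + 1) * ℓ ≤
      finrankAlong (ResidueField A) (mrhdbBe (ResidueField A) M ℓ) * ℓ := by
    rw [← h1]
    exact Nat.mul_le_mul_left _ h3
  exact Nat.le_of_mul_le_mul_right h4 hpos

/-- **(DEG-β) in characteristic `p`** : `[F_k(M ℓ) : β̄ F_k(M)] = ℓ + 1`. -/
theorem mrhdb_finrankAlong (hℓ : ℓ.Prime) (hℓM : ¬ ℓ ∣ M) (hpMℓ : ¬ p ∣ M * ℓ)
    (hA : A.LiesOverPrime p) :
    finrankAlong (ResidueField A) (mrhdbBe (ResidueField A) M ℓ) = ℓ + 1 := by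
  refine le_antisymm ?_ (mrhdb_hdeg M A ℓ hℓ hℓM hpMℓ hA)
  have hpM : ¬ p ∣ M := fun h => hpMℓ (Dvd.dvd.mul_right h ℓ)
  haveI : Fact ℓ.Prime := ⟨hℓ⟩
  rw [← s35db_finrankAlong_beta M hℓM]
  exact mrhdb_finrankAlong_le (heckeBetaBar Qb M ℓ) (mrhdbBe (ResidueField A) M ℓ)
    (gff_beta_finite M ℓ) (mrhdb_beta_finite M ℓ A) (grdO M A)
    (grdO_mem_or_inv_mem M A hpM hA) (grdRed M A) (grdO (M * ℓ) A) (grdRed (M * ℓ) A)
    (fun c => grdl_red_surjective (M * ℓ) A c)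
    (fun x hx => (mrh_level_beta M ℓ A x hx).1) (fun x hx => (mrh_level_beta M ℓ A x hx).2)

end Main

end Fermat.Agent.MR
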