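import Mathlib
import Fermat.Agent.MR.Hecke.Level

/-!
# PROGRAM MR (S44), block `mrh` (owner helper6) : HECKE vs REDUCTION — the level `N = M p`

`p ∤ M`, `𝔸` over `p`, `k = 𝔸/𝔪`, `ℓ ∤ M p` a prime.

* `mrhResP`, `mrhRed1P` : `V₁'' := grdO (M p ℓ) 𝔸` with the residue map
  `red₁'' : V₁'' → F_k(M p ℓ) = F_k(M ℓ)`;
* `mrh_levelP_alpha₁`, `mrh_levelP_beta₁`, `mrh_levelP_norm₁` : **index 1** of instance (b);
* `mrh_norm_comm` : transport of the norm along a commuting square of automorphisms;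
* `MrhwCommSpec` : THE INPUT from `MR/Hecke/WComm.lean` (helper8) : an automorphism `w''` of
  `F(M p ℓ)` lifting `w = ttrW` along both `α_ℓ` and `β_ℓ`;
* `mrh_levelP_alpha₂`, `mrh_levelP_beta₂`, `mrh_levelP_norm₂` : **index 2** (`V₂'' := w''⁻¹ V₁''`,
  `red₂'' := red₁'' ∘ w''`);
* `mrh_levelPSpec`, `mrh_heckeFunPSpec` : the Spec statements.
-/

set_option autoImplicit false
set_option linter.unusedSectionVars false
set_option linter.unusedVariables false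
set_option linter.style.haveILetI false
set_option synthInstance.maxHeartbeats 400000

noncomputable section

namespace Fermat.Agent.MR

open ModularCurve AlgebraicCurve IsLocalRing Fermat.Agent.S18 Fermat.Agent.S24
  Fermat.Agent.G Fermat.Agent.SS Fermat.Agent.TT

local notation "Qb" => AlgebraicClosure ℚ

/-! ### Transport of the norm along a commuting square -/

section NormComm

variable {K F F'' : Type*} [Field K] [Field F] [Field F''] [Algebra K F] [Algebra K F'']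

/-- `N_φ (w'' g) = w (N_φ g)` if `w'' ∘ φ = φ ∘ w`. -/
theorem mrh_norm_comm (φ : F →ₐ[K] F'') (w : F ≃+* F) (w'' : F'' ≃+* F'')
    (hw : ∀ x : F, w'' (φ x) = φ (w x)) (g : F'') :
    mrhNorm φ (w'' g) = w (mrhNorm φ g) := by
  unfold mrhNorm
  letI := algebraAlong φ
  have h := Algebra.norm_eq_of_equiv_equiv (A₁ := F) (B₁ := F'') (A₂ := F) (B₂ := F'') w w''
    (by
      ext x
      show φ (w x) = w'' (φ x)
      rw [hw]) g
  rw [h, RingEquiv.apply_symm_apply]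

end NormComm

section LevelP

variable (M : ℕ) [NeZero M] (p ℓ : ℕ) [Fact p.Prime] [NeZero p] [NeZero ℓ]
variable (A : ValuationSubring Qb)

/-! ### `V₁''` and `red₁''` -/

/-- `F_k((M p) ℓ) = F_k(M ℓ)` -/
theorem mrh_fullC_mulP_eq (hA : A.LiesOverPrime p) :
    modularFunctionFieldFullC (ResidueField A) (M * p * ℓ) =
      modularFunctionFieldFullC (ResidueField A) (M * ℓ) := by
  haveI := ttr_charP A hA
  rw [← ttr_fullC_mul_eq (ResidueField A) (M * ℓ) p]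
  apply le_antisymm
  · exact full_degeneracyC_le _ (dvd_of_eq (by ring))
  · exact full_degeneracyC_le _ (dvd_of_eq (by ring))

/-- `F_k((M p) ℓ) → F_k(M ℓ)` (the identity on series) -/
def mrhResP (hA : A.LiesOverPrime p) :
    ↥(modularFunctionFieldFullC (ResidueField A) (M * p * ℓ)) →+*
      ↥(modularFunctionFieldFullC (ResidueField A) (M * ℓ)) where
  toFun x := ⟨(x : LaurentSeries (ResidueField A)), (mrh_fullC_mulP_eq M p ℓ A hA).le x.2⟩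
  map_one' := rfl
  map_mul' _ _ := rfl
  map_zero' := rfl
  map_add' _ _ := rfl

theorem mrhResP_mk (hA : A.LiesOverPrime p) (s : LaurentSeries (ResidueField A))
    (hs : s ∈ modularFunctionFieldFullC (ResidueField A) (M * p * ℓ)) :
    ((mrhResP M p ℓ A hA ⟨s, hs⟩ : ↥(modularFunctionFieldFullC (ResidueField A) (M * ℓ))) :
      LaurentSeries (ResidueField A)) = s := rfl

theorem mrhResP_coe (hA : A.LiesOverPrime p)
    (x : ↥(modularFunctionFieldFullC (ResidueField A) (M * p * ℓ))) :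
    ((mrhResP M p ℓ A hA x : ↥(modularFunctionFieldFullC (ResidueField A) (M * ℓ))) :
      LaurentSeries (ResidueField A)) = x := by
  obtain ⟨s, hs⟩ := x
  exact mrhResP_mk M p ℓ A hA s hs

theorem mrhResP_surjective (hA : A.LiesOverPrime p) :
    Function.Surjective (mrhResP M p ℓ A hA) := by
  intro c
  refine ⟨⟨(c : LaurentSeries (ResidueField A)), (mrh_fullC_mulP_eq M p ℓ A hA).ge c.2⟩, ?_⟩
  apply Subtype.ext
  rw [mrhResP_mk]

/-- `red₁'' : V₁'' = grdO (M p ℓ) 𝔸 → F_k(M ℓ)` -/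
def mrhRed1P (hA : A.LiesOverPrime p) :
    ↥(grdO (M * p * ℓ) A) →+* ↥(modularFunctionFieldFullC (ResidueField A) (M * ℓ)) :=
  (mrhResP M p ℓ A hA).comp (grdRed (M * p * ℓ) A)

theorem mrhRed1P_coe (hA : A.LiesOverPrime p) (x : ↥(grdO (M * p * ℓ) A)) :
    ((mrhRed1P M p ℓ A hA x : ↥(modularFunctionFieldFullC (ResidueField A) (M * ℓ))) :
      LaurentSeries (ResidueField A)) =
      ((grdRed (M * p * ℓ) A x : ↥(modularFunctionFieldFullC (ResidueField A) (M * p * ℓ))) :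
        LaurentSeries (ResidueField A)) := by
  unfold mrhRed1P
  rw [RingHom.comp_apply, mrhResP_coe]

theorem mrhRed1P_surjective (hA : A.LiesOverPrime p) :
    Function.Surjective (mrhRed1P M p ℓ A hA) := by
  intro c
  obtain ⟨d, hd⟩ := mrhResP_surjective M p ℓ A hA c
  obtain ⟨x, hx⟩ := grdl_red_surjective (M * p * ℓ) A d
  exact ⟨x, by unfold mrhRed1P; rw [RingHom.comp_apply, hx, hd]⟩

/-! ### Index 1 -/

/-- (α), index 1 -/
theorem mrh_levelP_alpha₁ (hA : A.LiesOverPrime p)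
    (f : modularFunctionFieldBar (M * p)) (hf : f ∈ grdO (M * p) A) :
    ∃ h : heckeAlphaBar Qb (M * p) ℓ f ∈ grdO (M * p * ℓ) A,
      mrhRed1P M p ℓ A hA ⟨heckeAlphaBar Qb (M * p) ℓ f, h⟩ =
        ssvmdIncl (ResidueField A) M ℓ (ttrRed1 M A hA ⟨f, hf⟩) := by
  obtain ⟨h, e⟩ := mrh_level_alpha (M * p) ℓ A f hf
  refine ⟨h, Subtype.ext ?_⟩
  rw [mrhRed1P_coe, e, ssvmdIncl_coe, ssvmdIncl_coe, ttrRed1_coe]

/-- (β), index 1 -/
theorem mrh_levelP_beta₁ (hA : A.LiesOverPrime p)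
    (f : modularFunctionFieldBar (M * p)) (hf : f ∈ grdO (M * p) A) :
    ∃ h : heckeBetaBar Qb (M * p) ℓ f ∈ grdO (M * p * ℓ) A,
      mrhRed1P M p ℓ A hA ⟨heckeBetaBar Qb (M * p) ℓ f, h⟩ =
        ssvmfPhi (ResidueField A) M ℓ (ttrRed1 M A hA ⟨f, hf⟩) := by
  obtain ⟨h, e⟩ := mrh_level_beta (M * p) ℓ A f hf
  refine ⟨h, Subtype.ext ?_⟩
  rw [mrhRed1P_coe, e, ssvmfPhi_coe, ssvmfPhi_coe, ttrRed1_coe]

/-- (N), index 1 -/
theorem mrh_levelP_norm₁ (hpM : ¬ p ∣ M) (hA : A.LiesOverPrime p) (hℓ : ℓ.Prime)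
    (hℓM : ¬ ℓ ∣ M * p)
    (hdeg : ℓ + 1 ≤ finrankAlong (ResidueField A) (ssvmdIncl (ResidueField A) M ℓ))
    (g : modularFunctionFieldBar (M * p * ℓ)) (hg : g ∈ grdO (M * p * ℓ) A) :
    ∃ h : mrhNorm (heckeAlphaBar Qb (M * p) ℓ) g ∈ grdO (M * p) A,
      ttrRed1 M A hA ⟨mrhNorm (heckeAlphaBar Qb (M * p) ℓ) g, h⟩ =
        mrhNorm (ssvmdIncl (ResidueField A) M ℓ) (mrhRed1P M p ℓ A hA ⟨g, hg⟩) := by
  refine mrh_red_norm_along (heckeAlphaBar Qb (M * p) ℓ) (ssvmdIncl (ResidueField A) M ℓ)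
    (gff_alpha_finite (M * p) ℓ) (by rw [glv_finrank (M * p) ℓ hℓ hℓM]; exact hdeg)
    (grdO (M * p) A) (ttr_mem_or_inv_mem M A hpM hA) (ttrRed1 M A hA) ?_ (grdO (M * p * ℓ) A)
    (mrhRed1P M p ℓ A hA) (mrhRed1P_surjective M p ℓ A hA)
    (fun x hx => (mrh_levelP_alpha₁ M p ℓ A hA x hx).1) ?_ g hg
  · intro x hx
    by_contra h0
    exact hx (grdl_inv_mem (M * p) A x (fun h => h0 ((ttrRed1_eq_zero_iff' M A hA x).2 h)))
  · intro x hx
    exact (mrh_levelP_alpha₁ M p ℓ A hA x hx).2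

/-! ### Index 2 -/

/-- THE INPUT from `MR/Hecke/WComm.lean` : an automorphism `w''` of `F(M p ℓ)` lifting the
Atkin-Lehner involution `w = ttrW M hpM` of `F(M p)` along both `α_ℓ` and `β_ℓ`. -/
def MrhwCommSpec (hpM : ¬ p ∣ M) : Prop :=
  ∃ w'' : modularFunctionFieldBar (M * p * ℓ) ≃+* modularFunctionFieldBar (M * p * ℓ),
    (∀ x : modularFunctionFieldBar (M * p),
      w'' (heckeAlphaBar Qb (M * p) ℓ x) = heckeAlphaBar Qb (M * p) ℓ (ttrW M hpM x)) ∧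
    (∀ x : modularFunctionFieldBar (M * p),
      w'' (heckeBetaBar Qb (M * p) ℓ x) = heckeBetaBar Qb (M * p) ℓ (ttrW M hpM x))

variable (w'' : modularFunctionFieldBar (M * p * ℓ) ≃+* modularFunctionFieldBar (M * p * ℓ))

/-- (α), index 2 -/
theorem mrh_levelP_alpha₂ (hpM : ¬ p ∣ M) (hA : A.LiesOverPrime p)
    (hα : ∀ x : modularFunctionFieldBar (M * p),
      w'' (heckeAlphaBar Qb (M * p) ℓ x) = heckeAlphaBar Qb (M * p) ℓ (ttrW M hpM x))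
    (f : modularFunctionFieldBar (M * p)) (hf : f ∈ ttrV2 M A hpM) :
    ∃ h : heckeAlphaBar Qb (M * p) ℓ f ∈ ttrhV2 (grdO (M * p * ℓ) A) w'',
      ttrhRed2 (grdO (M * p * ℓ) A) w'' (mrhRed1P M p ℓ A hA)
          ⟨heckeAlphaBar Qb (M * p) ℓ f, h⟩ =
        ssvmdIncl (ResidueField A) M ℓ (ttrRed2 M A hpM hA ⟨f, hf⟩) := by
  obtain ⟨h, e⟩ := mrh_levelP_alpha₁ M p ℓ A hA (ttrW M hpM f) hf
  have h' : heckeAlphaBar Qb (M * p) ℓ f ∈ ttrhV2 (grdO (M * p * ℓ) A) w'' := by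
    rw [ttrh_mem_V2, hα]; exact h
  refine ⟨h', ?_⟩
  rw [ttrhRed2_apply, ttrhRed2_apply, ← e]
  congr 1
  exact Subtype.ext (hα f)

/-- (β), index 2 -/
theorem mrh_levelP_beta₂ (hpM : ¬ p ∣ M) (hA : A.LiesOverPrime p)
    (hβ : ∀ x : modularFunctionFieldBar (M * p),
      w'' (heckeBetaBar Qb (M * p) ℓ x) = heckeBetaBar Qb (M * p) ℓ (ttrW M hpM x))
    (f : modularFunctionFieldBar (M * p)) (hf : f ∈ ttrV2 M A hpM) :
    ∃ h : heckeBetaBar Qb (M * p) ℓ f ∈ ttrhV2 (grdO (M * p * ℓ) A) w'',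
      ttrhRed2 (grdO (M * p * ℓ) A) w'' (mrhRed1P M p ℓ A hA)
          ⟨heckeBetaBar Qb (M * p) ℓ f, h⟩ =
        ssvmfPhi (ResidueField A) M ℓ (ttrRed2 M A hpM hA ⟨f, hf⟩) := by
  obtain ⟨h, e⟩ := mrh_levelP_beta₁ M p ℓ A hA (ttrW M hpM f) hf
  have h' : heckeBetaBar Qb (M * p) ℓ f ∈ ttrhV2 (grdO (M * p * ℓ) A) w'' := by
    rw [ttrh_mem_V2, hβ]; exact h
  refine ⟨h', ?_⟩
  rw [ttrhRed2_apply, ttrhRed2_apply, ← e]
  congr 1
  exact Subtype.ext (hβ f)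

/-- (N), index 2 -/
theorem mrh_levelP_norm₂ (hpM : ¬ p ∣ M) (hA : A.LiesOverPrime p) (hℓ : ℓ.Prime)
    (hℓM : ¬ ℓ ∣ M * p)
    (hdeg : ℓ + 1 ≤ finrankAlong (ResidueField A) (ssvmdIncl (ResidueField A) M ℓ))
    (hα : ∀ x : modularFunctionFieldBar (M * p),
      w'' (heckeAlphaBar Qb (M * p) ℓ x) = heckeAlphaBar Qb (M * p) ℓ (ttrW M hpM x))
    (g : modularFunctionFieldBar (M * p * ℓ)) (hg : g ∈ ttrhV2 (grdO (M * p * ℓ) A) w'') :
    ∃ h : mrhNorm (heckeAlphaBar Qb (M * p) ℓ) g ∈ ttrV2 M A hpM,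
      ttrRed2 M A hpM hA ⟨mrhNorm (heckeAlphaBar Qb (M * p) ℓ) g, h⟩ =
        mrhNorm (ssvmdIncl (ResidueField A) M ℓ)
          (ttrhRed2 (grdO (M * p * ℓ) A) w'' (mrhRed1P M p ℓ A hA) ⟨g, hg⟩) := by
  obtain ⟨h, e⟩ := mrh_levelP_norm₁ M p ℓ A hpM hA hℓ hℓM hdeg (w'' g) hg
  have hc := mrh_norm_comm (heckeAlphaBar Qb (M * p) ℓ) (ttrW M hpM) w'' hα g
  have h' : mrhNorm (heckeAlphaBar Qb (M * p) ℓ) g ∈ ttrV2 M A hpM := by
    rw [ttrh_mem_V2, ← hc]; exact h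
  refine ⟨h', ?_⟩
  rw [ttrhRed2_apply, ttrhRed2_apply, ← e]
  congr 1
  exact Subtype.ext hc.symm

/-! ### The Spec statements -/

/-- **instance (b)** of the Spec, from the residue degree (`mrhd`) and the lift `w''` of the
Atkin-Lehner involution (`mrhw`). -/
theorem mrh_levelPSpec (hpM : ¬ p ∣ M) (hA : A.LiesOverPrime p) (hℓ : ℓ.Prime)
    (hℓM : ¬ ℓ ∣ M * p)
    (hdeg : ℓ + 1 ≤ finrankAlong (ResidueField A) (ssvmdIncl (ResidueField A) M ℓ))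
    (hw : MrhwCommSpec M p ℓ hpM) : MrhLevelPSpec M p ℓ A hpM hA := by
  obtain ⟨w'', hα, hβ⟩ := hw
  exact ⟨grdO (M * p * ℓ) A, ttrhV2 (grdO (M * p * ℓ) A) w'', mrhRed1P M p ℓ A hA,
    ttrhRed2 (grdO (M * p * ℓ) A) w'' (mrhRed1P M p ℓ A hA),
    mrh_levelP_alpha₁ M p ℓ A hA, mrh_levelP_beta₁ M p ℓ A hA,
    mrh_levelP_norm₁ M p ℓ A hpM hA hℓ hℓM hdeg,
    mrh_levelP_alpha₂ M p ℓ A w'' hpM hA hα, mrh_levelP_beta₂ M p ℓ A w'' hpM hA hβ,
    mrh_levelP_norm₂ M p ℓ A w'' hpM hA hℓ hℓM hdeg hα⟩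

/-- the Hecke function statement at the level `M p` from the level statement. -/
theorem mrh_heckeFunP_of_level (hpM : ¬ p ∣ M) (hA : A.LiesOverPrime p) :
    MrhHeckeFunPOfLevelSpec M p ℓ A hpM hA := by
  rintro ⟨V₁'', V₂'', red₁'', red₂'', -, hβ₁, hN₁, -, hβ₂, hN₂⟩
  refine ⟨fun f hf => ?_, fun f hf => ?_⟩
  · obtain ⟨h1, e1⟩ := hβ₁ f hf
    obtain ⟨h2, e2⟩ := hN₁ _ h1
    exact ⟨h2, by rw [e2, e1]⟩
  · obtain ⟨h1, e1⟩ := hβ₂ f hf
    obtain ⟨h2, e2⟩ := hN₂ _ h1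
    exact ⟨h2, by rw [e2, e1]⟩

/-- **the Hecke function at the level `M p`, index 1** (no `w''` needed) :
`red₁ (N_α (β f)) = N_{α_k} (β_k (red₁ f))`. -/
theorem mrh_heckeFunP₁ (hpM : ¬ p ∣ M) (hA : A.LiesOverPrime p) (hℓ : ℓ.Prime)
    (hℓM : ¬ ℓ ∣ M * p)
    (hdeg : ℓ + 1 ≤ finrankAlong (ResidueField A) (ssvmdIncl (ResidueField A) M ℓ))
    (f : modularFunctionFieldBar (M * p)) (hf : f ∈ grdO (M * p) A) :
    ∃ h : mrhNorm (heckeAlphaBar Qb (M * p) ℓ) (heckeBetaBar Qb (M * p) ℓ f) ∈ grdO (M * p) A,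
      ttrRed1 M A hA ⟨mrhNorm (heckeAlphaBar Qb (M * p) ℓ) (heckeBetaBar Qb (M * p) ℓ f), h⟩ =
        mrhNorm (ssvmdIncl (ResidueField A) M ℓ)
          (ssvmfPhi (ResidueField A) M ℓ (ttrRed1 M A hA ⟨f, hf⟩)) := by
  obtain ⟨h1, e1⟩ := mrh_levelP_beta₁ M p ℓ A hA f hf
  obtain ⟨h2, e2⟩ := mrh_levelP_norm₁ M p ℓ A hpM hA hℓ hℓM hdeg _ h1
  exact ⟨h2, by rw [e2, e1]⟩

/-- **the Hecke function at the level `M p`, both components**. -/
theorem mrh_heckeFunPSpec (hpM : ¬ p ∣ M) (hA : A.LiesOverPrime p) (hℓ : ℓ.Prime)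
    (hℓM : ¬ ℓ ∣ M * p)
    (hdeg : ℓ + 1 ≤ finrankAlong (ResidueField A) (ssvmdIncl (ResidueField A) M ℓ))
    (hw : MrhwCommSpec M p ℓ hpM) : MrhHeckeFunPSpec M p ℓ A hpM hA :=
  mrh_heckeFunP_of_level M p ℓ A hpM hA (mrh_levelPSpec M p ℓ A hpM hA hℓ hℓM hdeg hw)

/-- the Atkin-Lehner involution commutes with the Hecke operator on functions. -/
theorem mrh_w_heckeFun (hpM : ¬ p ∣ M) (hw : MrhwCommSpec M p ℓ hpM)
    (f : modularFunctionFieldBar (M * p)) :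
    mrhNorm (heckeAlphaBar Qb (M * p) ℓ) (heckeBetaBar Qb (M * p) ℓ (ttrW M hpM f)) =
      ttrW M hpM (mrhNorm (heckeAlphaBar Qb (M * p) ℓ) (heckeBetaBar Qb (M * p) ℓ f)) := by
  obtain ⟨w'', hα, hβ⟩ := hw
  rw [← hβ, mrh_norm_comm (heckeAlphaBar Qb (M * p) ℓ) (ttrW M hpM) w'' hα]

end LevelP

end Fermat.Agent.MR
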