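import Mathlib
import Fermat.Agent.MR.Hecke.LevelP
import Fermat.Agent.MR.M.Spec

/-!
# PROGRAM MR (S44), block `mrh` (owner helper6) : the deliverables in the literals of block `mrm`

* `mrh_mrmNormRedSpec` : `MrmNormRedSpec` (helper26's (M1-abs)) from `mrh_red_norm`;
* `mrh_mrmHeckeRedSpec` : `MrmHeckeRedSpec` ((M1) : `red₁ (T_ℓ f) = T̄_ℓ (red₁ f)` for `V₁`-units)
  from the residue degree;
* `mrh_mrmWHeckeSpec` : `MrmWHeckeSpec` ((M-w) : `w` commutes with `T_ℓ` on functions) from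
  `MrhwCommSpec`.
-/

set_option autoImplicit false
set_option linter.unusedSectionVars false
set_option linter.unusedVariables false
set_option linter.style.haveILetI false
set_option synthInstance.maxHeartbeats 400000

noncomputable section

namespace Fermat.Agent.MR

open ModularCurve AlgebraicCurve IsLocalRing Fermat.Agent.S18 Fermat.Agent.S24
  Fermat.Agent.G Fermat.Agent.SS Fermat.Agent.TT

local notation "Qb" => AlgebraicClosure ℚ

/-- helper26's (M1-abs). -/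
theorem mrh_mrmNormRedSpec : MrmNormRedSpec := by
  intro F F' E E' _ _ _ _ _ _ _ _ V V' red red' hVV' hsurj hsurj' hker hker' hcomp hdeg y
  have h := mrh_red_norm V.toSubring (fun x => V.mem_or_inv_mem x) red
    (fun x hx => by
      rw [hker x, ValuationSubring.mem_nonunits_iff_or]
      exact Or.inr hx)
    V'.toSubring red' (fun x hx => (hVV' x).1 hx)
    (fun x hx => hcomp ⟨x, hx⟩ ((hVV' x).1 hx)) hsurj' hdeg (y : F') y.2
  exact h

section Concrete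

variable (M : ℕ) [NeZero M] {p : ℕ} [Fact p.Prime] [NeZero p]
variable (A : ValuationSubring Qb) (hpM : ¬ p ∣ M) (hA : A.LiesOverPrime p)

theorem mrh_mrmTbarFun_eq (k : Type*) [Field k] (M ℓ : ℕ) [NeZero M] [NeZero ℓ]
    (ψ : modularFunctionFieldFullC k M) :
    mrmTbarFun k M ℓ ψ = mrhNorm (ssvmdIncl k M ℓ) (ssvmfPhi k M ℓ ψ) := rfl

theorem mrh_gHeckeFun_eq (N ℓ : ℕ) [NeZero N] [NeZero ℓ] (f : modularFunctionFieldBar N) :
    gHeckeFun N ℓ f = mrhNorm (heckeAlphaBar Qb N ℓ) (heckeBetaBar Qb N ℓ f) := rfl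

theorem mrh_gHeckeFun_zero (N ℓ : ℕ) [NeZero N] [NeZero ℓ] : gHeckeFun N ℓ 0 = 0 := by
  rw [mrh_gHeckeFun_eq, map_zero]
  unfold mrhNorm
  letI := algebraAlong (heckeAlphaBar Qb N ℓ)
  haveI : Module.Finite (modularFunctionFieldBar N) (modularFunctionFieldBar (N * ℓ)) :=
    gff_alpha_finite N ℓ
  exact Algebra.norm_zero

theorem mrh_gHeckeFun_inv (N ℓ : ℕ) [NeZero N] [NeZero ℓ] (f : modularFunctionFieldBar N) :
    gHeckeFun N ℓ f⁻¹ = (gHeckeFun N ℓ f)⁻¹ := by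
  by_cases hf : f = 0
  · rw [hf, inv_zero, mrh_gHeckeFun_zero, inv_zero]
  · symm
    apply inv_eq_of_mul_eq_one_right
    rw [← map_mul, mul_inv_cancel₀ hf, map_one]

/-- helper26's (M1) : `red₁ (T_ℓ f) = T̄_ℓ (red₁ f)` for units of `V₁`, from the residue degree. -/
theorem mrh_mrmHeckeRedSpec
    (hdeg : ∀ (ℓ : ℕ) [NeZero ℓ], ℓ.Prime → ¬ ℓ ∣ M * p →
      ℓ + 1 ≤ finrankAlong (ResidueField A) (ssvmdIncl (ResidueField A) M ℓ)) :
    MrmHeckeRedSpec M A hpM hA := by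
  intro ℓ _ hℓ hℓM f hf
  obtain ⟨h1, e1⟩ := mrh_heckeFunP₁ M p ℓ A hpM hA hℓ hℓM (hdeg ℓ hℓ hℓM) f hf.1
  obtain ⟨h2, -⟩ := mrh_heckeFunP₁ M p ℓ A hpM hA hℓ hℓM (hdeg ℓ hℓ hℓM) f⁻¹ hf.2
  refine ⟨⟨h1, ?_⟩, e1⟩
  rw [← mrh_gHeckeFun_inv]
  exact h2

/-- helper26's (M-w) : `w` commutes with `T_ℓ` on functions, from the lift `w''`. -/
theorem mrh_mrmWHeckeSpec
    (hw : ∀ (ℓ : ℕ) [NeZero ℓ], ℓ.Prime → ¬ ℓ ∣ M * p → MrhwCommSpec M p ℓ hpM) :
    MrmWHeckeSpec M hpM := by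
  intro ℓ _ hℓ hℓM f
  exact mrh_w_heckeFun M p ℓ hpM (hw ℓ hℓ hℓM) f

end Concrete

end Fermat.Agent.MR
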