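import Mathlib
import Fermat.Agent.MR.Hecke.ToM
import Fermat.Agent.MR.Hecke.DegPlug
import Fermat.Agent.MR.Hecke.DegBeta

/-!
# PROGRAM MR (S44), block `mrh` (owner helper6) : the closed statements

The residue degree `hdeg` (block `mrhd`, helper18, `MR/Hecke/Deg.lean`) plugged into instance (b)
and into the literals of block `mrm` :

* `mrh_heckeFunP₁_closed` : `red₁ (N_α (β f)) = N_{α_k} (β_k (red₁ f))` at the level `M p`;
* `mrh_mrmHeckeRedSpec_closed : MrmHeckeRedSpec M A hpM hA` (no hypothesis left);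
* `mrh_levelPSpec_closed`, `mrh_heckeFunPSpec_closed` : from `MrhwCommSpec` alone.
-/

set_option autoImplicit false
set_option linter.unusedSectionVars false
set_option linter.unusedVariables false
set_option linter.style.haveILetI false

noncomputable section

namespace Fermat.Agent.MR

open ModularCurve AlgebraicCurve IsLocalRing Fermat.Agent.S18 Fermat.Agent.S24
  Fermat.Agent.G Fermat.Agent.SS Fermat.Agent.TT

local notation "Qb" => AlgebraicClosure ℚ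

section Closed

variable (M : ℕ) [NeZero M] (p ℓ : ℕ) [Fact p.Prime] [NeZero p] [NeZero ℓ]
variable (A : ValuationSubring Qb)

theorem mrh_not_dvd_left (hℓM : ¬ ℓ ∣ M * p) : ¬ ℓ ∣ M :=
  fun h => hℓM (Dvd.dvd.mul_right h p)

theorem mrh_not_dvd_mul (hpM : ¬ p ∣ M) (hℓ : ℓ.Prime) (hℓM : ¬ ℓ ∣ M * p) : ¬ p ∣ M * ℓ := by
  intro h
  have hp : p.Prime := Fact.out
  rcases (Nat.Prime.dvd_mul hp).1 h with h1 | h1
  · exact hpM h1
  · have : p = ℓ := (Nat.prime_dvd_prime_iff_eq hp hℓ).1 h1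
    exact hℓM (this ▸ Dvd.intro_left M rfl)

/-- the residue degree at the level `M p` -/
theorem mrh_hdegP (hpM : ¬ p ∣ M) (hA : A.LiesOverPrime p) (hℓ : ℓ.Prime) (hℓM : ¬ ℓ ∣ M * p) :
    ℓ + 1 ≤ finrankAlong (ResidueField A) (ssvmdIncl (ResidueField A) M ℓ) :=
  mrhd_hdeg M ℓ A hℓ (mrh_not_dvd_left M p ℓ hℓM) (mrh_not_dvd_mul M p ℓ hpM hℓ hℓM) hA

/-- **the Hecke function at the level `M p`, index 1**, closed. -/
theorem mrh_heckeFunP₁_closed (hpM : ¬ p ∣ M) (hA : A.LiesOverPrime p) (hℓ : ℓ.Prime)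
    (hℓM : ¬ ℓ ∣ M * p) (f : modularFunctionFieldBar (M * p)) (hf : f ∈ grdO (M * p) A) :
    ∃ h : mrhNorm (heckeAlphaBar Qb (M * p) ℓ) (heckeBetaBar Qb (M * p) ℓ f) ∈ grdO (M * p) A,
      ttrRed1 M A hA ⟨mrhNorm (heckeAlphaBar Qb (M * p) ℓ) (heckeBetaBar Qb (M * p) ℓ f), h⟩ =
        mrhNorm (ssvmdIncl (ResidueField A) M ℓ)
          (ssvmfPhi (ResidueField A) M ℓ (ttrRed1 M A hA ⟨f, hf⟩)) :=
  mrh_heckeFunP₁ M p ℓ A hpM hA hℓ hℓM (mrh_hdegP M p ℓ A hpM hA hℓ hℓM) f hf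

/-- **instance (b)**, from the lift `w''` of the Atkin-Lehner involution alone. -/
theorem mrh_levelPSpec_closed (hpM : ¬ p ∣ M) (hA : A.LiesOverPrime p) (hℓ : ℓ.Prime)
    (hℓM : ¬ ℓ ∣ M * p) (hw : MrhwCommSpec M p ℓ hpM) : MrhLevelPSpec M p ℓ A hpM hA :=
  mrh_levelPSpec M p ℓ A hpM hA hℓ hℓM (mrh_hdegP M p ℓ A hpM hA hℓ hℓM) hw

/-- **the Hecke function at the level `M p`, both components**, from `w''` alone. -/
theorem mrh_heckeFunPSpec_closed (hpM : ¬ p ∣ M) (hA : A.LiesOverPrime p) (hℓ : ℓ.Prime)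
    (hℓM : ¬ ℓ ∣ M * p) (hw : MrhwCommSpec M p ℓ hpM) : MrhHeckeFunPSpec M p ℓ A hpM hA :=
  mrh_heckeFunPSpec M p ℓ A hpM hA hℓ hℓM (mrh_hdegP M p ℓ A hpM hA hℓ hℓM) hw

end Closed

section ClosedM

variable (M : ℕ) [NeZero M] {p : ℕ} [Fact p.Prime] [NeZero p]
variable (A : ValuationSubring Qb) (hpM : ¬ p ∣ M) (hA : A.LiesOverPrime p)

/-- helper26's (M1), closed. -/
theorem mrh_mrmHeckeRedSpec_closed : MrmHeckeRedSpec M A hpM hA :=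
  mrh_mrmHeckeRedSpec M A hpM hA fun ℓ _ hℓ hℓM => mrh_hdegP M p ℓ A hpM hA hℓ hℓM

/-- `β̄` of block `mrm` is `β̄` of block `mrhdb`. -/
theorem mrh_mrmBeB_eq (k : Type*) [Field k] (N ℓ : ℕ) [NeZero N] [NeZero ℓ] :
    mrmBeB k N ℓ = mrhdbBe k N ℓ := rfl

/-- the residue degree of `β̄ = mrmBeB` (helper26's literal), `≥`. -/
theorem mrh_hdeg_mrmBeB (hpM : ¬ p ∣ M) (hA : A.LiesOverPrime p) (ℓ : ℕ) [NeZero ℓ]
    (hℓ : ℓ.Prime) (hℓM : ¬ ℓ ∣ M * p) :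
    ℓ + 1 ≤ finrankAlong (ResidueField A) (mrmBeB (ResidueField A) M ℓ) := by
  rw [mrh_mrmBeB_eq]
  exact mrhdb_hdeg M A ℓ hℓ (mrh_not_dvd_left M p ℓ hℓM) (mrh_not_dvd_mul M p ℓ hpM hℓ hℓM) hA

/-- the residue degree of `β̄ = mrmBeB`. -/
theorem mrh_finrankAlong_mrmBeB (hpM : ¬ p ∣ M) (hA : A.LiesOverPrime p) (ℓ : ℕ) [NeZero ℓ]
    (hℓ : ℓ.Prime) (hℓM : ¬ ℓ ∣ M * p) :
    finrankAlong (ResidueField A) (mrmBeB (ResidueField A) M ℓ) = ℓ + 1 := by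
  rw [mrh_mrmBeB_eq]
  exact mrhdb_finrankAlong M A ℓ hℓ (mrh_not_dvd_left M p ℓ hℓM)
    (mrh_not_dvd_mul M p ℓ hpM hℓ hℓM) hA

/-- the residue degree of `ᾱ = mrmAlB`. -/
theorem mrh_finrankAlong_mrmAlB (hpM : ¬ p ∣ M) (hA : A.LiesOverPrime p) (ℓ : ℕ) [NeZero ℓ]
    (hℓ : ℓ.Prime) (hℓM : ¬ ℓ ∣ M * p) :
    finrankAlong (ResidueField A) (mrmAlB (ResidueField A) M ℓ) = ℓ + 1 :=
  mrhd_finrankAlong M ℓ A hℓ (mrh_not_dvd_left M p ℓ hℓM) (mrh_not_dvd_mul M p ℓ hpM hℓ hℓM) hA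

end ClosedM

end Fermat.Agent.MR
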