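import Mathlib
import Fermat.Agent.S24.PlacesPrincipal
import Fermat.Agent.S18.V.DegreeDown
import Fermat.Agent.SS.Val.ModFrob2
import Fermat.Agent.G.Red.Inst

/-!
# Program MR, block `mrh` / `mro` : INTEGRALITY of `β_k : F_k(M) → F_k(M ℓ)`, `q ↦ q ^ ℓ` (helper15)

Prefix `mrhb`.

* `mrhb_isIntegral_of_transcendental` (abstract): a `K`-embedding `φ : F → F'` of fields, `F'`
  algebraic over `K(t')`, `φ t` transcendental over `K` ⟹ `φ` is integral (exchange: `F'` is
  algebraic over `K(φ t) ⊆ φ F`);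
* `mrhb_phi_isIntegral k M ℓ` (`[CharP k p]`, `p ∤ M ℓ`) : `(ssvmfPhi k M ℓ).IsIntegral`;
* `mrhb_phi_isIntegral_res M ℓ 𝔸` : the same for `k = 𝔸/𝔪`, `𝔸` over `p`.
The `k`-algebra homomorphism `mrhbPhiAlg k M ℓ` has underlying ring homomorphism `ssvmfPhi k M ℓ`
(definitionally), as does helper5's `mrorPhiAlg`.
-/

set_option autoImplicit false
set_option linter.unusedSectionVars false
set_option linter.unusedVariables false
set_option linter.style.haveILetI false
set_option synthInstance.maxHeartbeats 400000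

noncomputable section

namespace Fermat.Agent.MR

open ModularCurve AlgebraicCurve IsLocalRing IntermediateField Fermat.Agent.S18 Fermat.Agent.S24
  Fermat.Agent.SS Fermat.Agent.G HahnSeries

local notation "Qb" => AlgebraicClosure ℚ

section Abstract

variable {K F F' : Type*} [Field K] [Field F] [Field F'] [Algebra K F] [Algebra K F']

/-- EXCHANGE : a `K`-embedding of function fields of one variable is integral. -/
theorem mrhb_isIntegral_of_transcendental (φ : F →ₐ[K] F') (t' : F')
    [Algebra.IsAlgebraic K⟮t'⟯ F'] {t : F} (ht : Transcendental K (φ t)) :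
    φ.toRingHom.IsIntegral := by
  have halg : Algebra.IsAlgebraic K⟮φ t⟯ F' := pp_isAlgebraic_of_transcendental t' ht
  have hle : (K⟮φ t⟯).toSubalgebra ≤ φ.range := by
    rw [← AlgHom.fieldRange_toSubalgebra, IntermediateField.toSubalgebra_le_toSubalgebra,
      adjoin_simple_le_iff]
    exact ⟨t, rfl⟩
  letI : Algebra F F' := φ.toRingHom.toAlgebra
  intro x
  have h1 : IsAlgebraic (K⟮φ t⟯).toSubalgebra x := halg.isAlgebraic x
  have h2 : IsAlgebraic φ.range x := h1.tower_top_of_subalgebra_le hle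
  have h3 : IsAlgebraic F x :=
    IsAlgebraic.of_ringHom_of_comp_eq (f := (φ.rangeRestrict : F →+* φ.range))
      (g := RingHom.id F') h2 φ.rangeRestrict_surjective Function.injective_id (by ext y; rfl)
  exact h3.isIntegral

end Abstract

section Phi

variable (k : Type*) [Field k] (M ℓ : ℕ) [NeZero M] [NeZero ℓ]

/-- `β_k : F_k(M) → F_k(M ℓ)`, `q ↦ q ^ ℓ`, as a `k`-algebra homomorphism. -/
def mrhbPhiAlg : modularFunctionFieldFullC k M →ₐ[k] modularFunctionFieldFullC k (M * ℓ) :=
  { ssvmfPhi k M ℓ with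
    commutes' := fun a => Subtype.ext <| by
      show qExpand k ℓ (algebraMap k (LaurentSeries k) a) = algebraMap k (LaurentSeries k) a
      rw [algebraMap_laurentSeries_eq_single, qExpand_single, mul_zero] }

theorem mrhbPhiAlg_toRingHom : (mrhbPhiAlg k M ℓ).toRingHom = ssvmfPhi k M ℓ := rfl

variable {p : ℕ} [Fact p.Prime]

/-- **`β_k` is integral** (`char k = p ∤ M ℓ`). -/
theorem mrhb_phi_isIntegral [CharP k p] (hpMℓ : ¬ p ∣ M * ℓ) : (ssvmfPhi k M ℓ).IsIntegral := by
  have hpM : ¬ p ∣ M := fun h => hpMℓ (Dvd.dvd.mul_right h ℓ)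
  have hsep' := s18v_isSepGen_res (ℓ := p) k (M * ℓ) hpMℓ
  have hsep := s18v_isSepGen_res (ℓ := p) k M hpM
  haveI : FiniteDimensional
      k⟮(⟨jqModC k, jqModC_mem_full k (M * ℓ)⟩ : modularFunctionFieldFullC k (M * ℓ))⟯
      (modularFunctionFieldFullC k (M * ℓ)) := hsep'.finite
  have htr : Transcendental k (mrhbPhiAlg k M ℓ
      (⟨jqModC k, jqModC_mem_full k M⟩ : modularFunctionFieldFullC k M)) := by
    intro halg
    exact hsep.transcendental
      ((isAlgebraic_algHom_iff (mrhbPhiAlg k M ℓ) (mrhbPhiAlg k M ℓ).toRingHom.injective).mp halg)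
  exact mrhb_isIntegral_of_transcendental (mrhbPhiAlg k M ℓ)
    (⟨jqModC k, jqModC_mem_full k (M * ℓ)⟩ : modularFunctionFieldFullC k (M * ℓ)) htr

/-- the same for the residue field of a valuation ring of `ℚ̄` over `p`. -/
theorem mrhb_phi_isIntegral_res (A : ValuationSubring Qb) (hA : A.LiesOverPrime p)
    (hpMℓ : ¬ p ∣ M * ℓ) : (ssvmfPhi (ResidueField A) M ℓ).IsIntegral := by
  haveI : CharP (ResidueField A) p := s18ac_charP A hA
  exact mrhb_phi_isIntegral (ResidueField A) M ℓ hpMℓ

end Phi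

end Fermat.Agent.MR
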