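import Mathlib
import Fermat.Agent.MR.Hecke.Abs

/-!
# PROGRAM MR (S44), block `mrh` (owner helper6) : (ABS), matrix and characteristic polynomial form

Same hypotheses as `mrh_red_norm`.

* `mrh_exists_basis` : a `k`-basis `c` of `k''` and an `F`-basis `B` of `F''` inside `V''` lifting it,
  such that the matrix of the multiplication by every `g ∈ V''` in `B` has entries in `V` and
  reduces entrywise to the matrix of the multiplication by `red'' g` in `c`;
* `mrh_red_charpoly` : every `g ∈ V''` is a root of a monic `P ∈ V[X]` of degree `[F'' : F]` whose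
  reduction is the characteristic polynomial of `red'' g` over `k`;
* `mrh_red_charpoly_zero` : if `red'' g = 0` then `P̄ = X^n` : all the lower coefficients of `P` lie in
  the kernel of `red`.
-/

set_option autoImplicit false
set_option linter.unusedSectionVars false
set_option linter.unusedVariables false
set_option linter.style.haveILetI false

noncomputable section

namespace Fermat.Agent.MR

open Module

section AbsMat

variable {F F'' k k'' : Type*} [Field F] [Field F''] [Field k] [Field k'']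
variable [Algebra F F''] [Algebra k k''] [FiniteDimensional F F''] [FiniteDimensional k k'']

/-- a lifted residue basis, and the matrices of the multiplications. -/
theorem mrh_exists_basis (V : Subring F) (hV : ∀ x : F, x ∈ V ∨ x⁻¹ ∈ V) (red : ↥V →+* k)
    (hker : ∀ x : ↥V, (x : F)⁻¹ ∉ V → red x = 0)
    (V'' : Subring F'') (red'' : ↥V'' →+* k'')
    (hmap : ∀ x : F, x ∈ V → algebraMap F F'' x ∈ V'')
    (hcomp : ∀ (x : F) (hx : x ∈ V),
      red'' ⟨algebraMap F F'' x, hmap x hx⟩ = algebraMap k k'' (red ⟨x, hx⟩))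
    (hsurj : Function.Surjective red'')
    (hdeg : finrank F F'' ≤ finrank k k'') :
    ∃ (B : Basis (Fin (finrank k k'')) F F'') (c : Basis (Fin (finrank k k'')) k k'')
      (hB : ∀ i, B i ∈ V''), (∀ i, red'' ⟨B i, hB i⟩ = c i) ∧
      ∀ (g : F'') (hg : g ∈ V''), ∃ mV : Matrix (Fin (finrank k k'')) (Fin (finrank k k'')) ↥V,
        Algebra.leftMulMatrix B g = V.subtype.mapMatrix mV ∧
        Algebra.leftMulMatrix c (red'' ⟨g, hg⟩) = red.mapMatrix mV := by
  classical
  let c : Basis (Fin (finrank k k'')) k k'' := Module.finBasis k k''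
  choose b hb using fun i => hsurj (c i)
  have hli : LinearIndependent k (fun i => red'' (b i)) := by
    have : (fun i => red'' (b i)) = c := funext hb
    rw [this]
    exact c.linearIndependent
  have hliF := mrh_lift_indep V hV red V'' red'' hmap hcomp b hli
  have hcard : Fintype.card (Fin (finrank k k'')) = finrank F F'' := by
    have h1 := hliF.fintype_card_le_finrank
    rw [Fintype.card_fin] at h1 ⊢
    omega
  haveI : Nonempty (Fin (finrank k k'')) := ⟨⟨0, Module.finrank_pos⟩⟩
  let B : Basis (Fin (finrank k k'')) F F'' := basisOfLinearIndependentOfCardEqFinrank hliF hcard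
  have hB : ∀ i, B i = (b i : F'') := fun i => by
    rw [coe_basisOfLinearIndependentOfCardEqFinrank]
  refine ⟨B, c, fun i => (hB i).symm ▸ (b i).2, fun i => ?_, fun g hg => ?_⟩
  · rw [← hb i]
    congr 1
    exact Subtype.ext (hB i)
  have hmem : ∀ i j, Algebra.leftMulMatrix B g i j ∈ V := by
    intro i j
    rw [Algebra.leftMulMatrix_eq_repr_mul]
    refine mrh_coeff_mem V hV red hker V'' red'' hmap hcomp b hli
      (fun i => B.repr (g * B j) i) ?_ i
    have h1 : ∑ i, B.repr (g * B j) i • (b i : F'') = g * B j := by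
      conv_rhs => rw [← B.sum_repr (g * B j)]
      exact Finset.sum_congr rfl fun i _ => by rw [hB i]
    rw [h1, hB]
    exact V''.mul_mem hg (b j).2
  let mV : Matrix (Fin (finrank k k'')) (Fin (finrank k k'')) ↥V :=
    fun i j => ⟨Algebra.leftMulMatrix B g i j, hmem i j⟩
  refine ⟨mV, ?_, ?_⟩
  · ext i j
    rfl
  ext i j
  rw [RingHom.mapMatrix_apply, Matrix.map_apply, Algebra.leftMulMatrix_eq_repr_mul]
  have h1 : (⟨g, hg⟩ : ↥V'') * b j =
      ∑ i, (⟨algebraMap F F'' (mV i j : F), hmap _ (mV i j).2⟩ : ↥V'') * b i := by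
    apply Subtype.ext
    push_cast
    have h2 : g * B j = ∑ i, B.repr (g * B j) i • B i := (B.sum_repr (g * B j)).symm
    rw [← hB j, h2]
    refine Finset.sum_congr rfl fun i _ => ?_
    rw [Algebra.smul_def, hB i]
    show _ = algebraMap F F'' (Algebra.leftMulMatrix B g i j) * _
    rw [Algebra.leftMulMatrix_eq_repr_mul]
  have h3 : red'' ⟨g, hg⟩ * c j = ∑ i, red (mV i j) • c i := by
    rw [← hb j, ← map_mul, h1, map_sum]
    refine Finset.sum_congr rfl fun i _ => ?_
    rw [map_mul, hcomp, Algebra.smul_def, hb i]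
  rw [h3, Basis.repr_sum_self]

/-- every `g ∈ V''` is a root of a monic polynomial over `V` of degree `[F'' : F]` reducing to the
characteristic polynomial of (the multiplication by) `red'' g`. -/
theorem mrh_red_charpoly (V : Subring F) (hV : ∀ x : F, x ∈ V ∨ x⁻¹ ∈ V) (red : ↥V →+* k)
    (hker : ∀ x : ↥V, (x : F)⁻¹ ∉ V → red x = 0)
    (V'' : Subring F'') (red'' : ↥V'' →+* k'')
    (hmap : ∀ x : F, x ∈ V → algebraMap F F'' x ∈ V'')
    (hcomp : ∀ (x : F) (hx : x ∈ V),
      red'' ⟨algebraMap F F'' x, hmap x hx⟩ = algebraMap k k'' (red ⟨x, hx⟩))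
    (hsurj : Function.Surjective red'')
    (hdeg : finrank F F'' ≤ finrank k k'') (g : F'') (hg : g ∈ V'') :
    ∃ P : Polynomial ↥V, P.Monic ∧ P.natDegree = finrank k k'' ∧
      Polynomial.aeval g (P.map V.subtype) = 0 ∧
      P.map red = LinearMap.charpoly (Algebra.lmul k k'' (red'' ⟨g, hg⟩)) := by
  classical
  obtain ⟨B, c, hB, hBc, hmat⟩ :=
    mrh_exists_basis V hV red hker V'' red'' hmap hcomp hsurj hdeg
  obtain ⟨mV, h1, h2⟩ := hmat g hg
  refine ⟨mV.charpoly, Matrix.charpoly_monic mV, ?_, ?_, ?_⟩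
  · rw [Matrix.charpoly_natDegree_eq_dim, Fintype.card_fin]
  · have h3 : (mV.charpoly).map V.subtype = (Algebra.leftMulMatrix B g).charpoly := by
      rw [h1, RingHom.mapMatrix_apply, Matrix.charpoly_map]
    rw [h3]
    apply Algebra.leftMulMatrix_injective B
    rw [← Polynomial.aeval_algHom_apply, map_zero]
    exact Matrix.aeval_self_charpoly _
  · have h3 : (mV.charpoly).map red = (Algebra.leftMulMatrix c (red'' ⟨g, hg⟩)).charpoly := by
      rw [h2, RingHom.mapMatrix_apply, Matrix.charpoly_map]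
    rw [h3, Algebra.leftMulMatrix_apply, LinearMap.charpoly_toMatrix]

/-- **the characteristic polynomial of `g ∈ V''` over `F` has its coefficients in `V` and reduces to
the characteristic polynomial of `red'' g` over `k`.** -/
theorem mrh_red_charpoly_eq (V : Subring F) (hV : ∀ x : F, x ∈ V ∨ x⁻¹ ∈ V) (red : ↥V →+* k)
    (hker : ∀ x : ↥V, (x : F)⁻¹ ∉ V → red x = 0)
    (V'' : Subring F'') (red'' : ↥V'' →+* k'')
    (hmap : ∀ x : F, x ∈ V → algebraMap F F'' x ∈ V'')
    (hcomp : ∀ (x : F) (hx : x ∈ V),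
      red'' ⟨algebraMap F F'' x, hmap x hx⟩ = algebraMap k k'' (red ⟨x, hx⟩))
    (hsurj : Function.Surjective red'')
    (hdeg : finrank F F'' ≤ finrank k k'') (g : F'') (hg : g ∈ V'') :
    ∃ P : Polynomial ↥V,
      P.map V.subtype = LinearMap.charpoly (Algebra.lmul F F'' g) ∧
      P.map red = LinearMap.charpoly (Algebra.lmul k k'' (red'' ⟨g, hg⟩)) := by
  classical
  obtain ⟨B, c, hB, hBc, hmat⟩ :=
    mrh_exists_basis V hV red hker V'' red'' hmap hcomp hsurj hdeg
  obtain ⟨mV, h1, h2⟩ := hmat g hg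
  refine ⟨mV.charpoly, ?_, ?_⟩
  · have h3 : (mV.charpoly).map V.subtype = (Algebra.leftMulMatrix B g).charpoly := by
      rw [h1, RingHom.mapMatrix_apply, Matrix.charpoly_map]
    rw [h3, Algebra.leftMulMatrix_apply, LinearMap.charpoly_toMatrix]
  · have h3 : (mV.charpoly).map red = (Algebra.leftMulMatrix c (red'' ⟨g, hg⟩)).charpoly := by
      rw [h2, RingHom.mapMatrix_apply, Matrix.charpoly_map]
    rw [h3, Algebra.leftMulMatrix_apply, LinearMap.charpoly_toMatrix]

/-- if `red'' g = 0`, all the lower coefficients of the polynomial lie in the kernel of `red`. -/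
theorem mrh_red_charpoly_zero (V : Subring F) (hV : ∀ x : F, x ∈ V ∨ x⁻¹ ∈ V) (red : ↥V →+* k)
    (hker : ∀ x : ↥V, (x : F)⁻¹ ∉ V → red x = 0)
    (V'' : Subring F'') (red'' : ↥V'' →+* k'')
    (hmap : ∀ x : F, x ∈ V → algebraMap F F'' x ∈ V'')
    (hcomp : ∀ (x : F) (hx : x ∈ V),
      red'' ⟨algebraMap F F'' x, hmap x hx⟩ = algebraMap k k'' (red ⟨x, hx⟩))
    (hsurj : Function.Surjective red'')
    (hdeg : finrank F F'' ≤ finrank k k'') (g : F'') (hg : g ∈ V'')
    (h0 : red'' ⟨g, hg⟩ = 0) :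
    ∃ P : Polynomial ↥V, P.Monic ∧ P.natDegree = finrank k k'' ∧
      Polynomial.aeval g (P.map V.subtype) = 0 ∧
      ∀ i, i < finrank k k'' → red (P.coeff i) = 0 := by
  obtain ⟨P, hP1, hP2, hP3, hP4⟩ :=
    mrh_red_charpoly V hV red hker V'' red'' hmap hcomp hsurj hdeg g hg
  refine ⟨P, hP1, hP2, hP3, fun i hi => ?_⟩
  rw [h0, map_zero, LinearMap.charpoly_zero] at hP4
  have := congrArg (fun Q => Polynomial.coeff Q i) hP4
  simp only [Polynomial.coeff_map, Polynomial.coeff_X_pow] at this
  rw [this, if_neg (ne_of_lt hi)]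

end AbsMat

section AbsMatAlong

open AlgebraicCurve

variable {K F F'' k K1 K2 : Type*} [Field K] [Field F] [Field F''] [Field k] [Field K1] [Field K2]
  [Algebra K F] [Algebra K F''] [Algebra k K1] [Algebra k K2]

/-- `mrh_red_charpoly_zero` in the "along" form : an element `g ∈ V''` with `red'' g = 0` is a root
of a monic polynomial over `V` of degree `[K2 : K1]` all of whose lower coefficients lie in the
kernel of `red`. -/
theorem mrh_red_charpoly_zero_along (φ : F →ₐ[K] F'') (φk : K1 →ₐ[k] K2)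
    (hfin : FiniteAlong K φ) (hdeg : finrankAlong K φ ≤ finrankAlong k φk)
    (V : Subring F) (hV : ∀ x : F, x ∈ V ∨ x⁻¹ ∈ V)
    (red : ↥V →+* K1) (hker : ∀ x : ↥V, (x : F)⁻¹ ∉ V → red x = 0)
    (V'' : Subring F'') (red'' : ↥V'' →+* K2) (hsurj : Function.Surjective red'')
    (hmap : ∀ x : F, x ∈ V → φ x ∈ V'')
    (hcomp : ∀ (x : F) (hx : x ∈ V), red'' ⟨φ x, hmap x hx⟩ = φk (red ⟨x, hx⟩))
    (g : F'') (hg : g ∈ V'') (h0 : red'' ⟨g, hg⟩ = 0) :
    ∃ P : Polynomial ↥V, P.Monic ∧ P.natDegree = finrankAlong k φk ∧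
      Polynomial.eval₂ (φ.toRingHom.comp V.subtype) g P = 0 ∧
      ∀ i, i < finrankAlong k φk → red (P.coeff i) = 0 := by
  letI := algebraAlong φ
  letI := algebraAlong φk
  haveI : FiniteDimensional F F'' := hfin
  have hpos : 0 < Module.finrank F F'' := Module.finrank_pos
  have hdeg' : Module.finrank F F'' ≤ Module.finrank K1 K2 := hdeg
  haveI : FiniteDimensional K1 K2 := Module.finite_of_finrank_pos (lt_of_lt_of_le hpos hdeg')
  obtain ⟨P, hP1, hP2, hP3, hP4⟩ :=
    mrh_red_charpoly_zero V hV red hker V'' red'' hmap hcomp hsurj hdeg' g hg h0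
  refine ⟨P, hP1, hP2, ?_, hP4⟩
  rw [Polynomial.aeval_def, Polynomial.eval₂_map] at hP3
  exact hP3

end AbsMatAlong

end Fermat.Agent.MR
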