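import Mathlib
import Fermat.Agent.MR.Hecke.LevelP
import Fermat.Agent.MR.Hecke.AbsMat
import Fermat.Agent.MR.Hecke.DegBeta

/-!
# PROGRAM MR (S44), block `mrh` (owner helper6) : THE (ABS) PACKAGE AND ITS SIX INSTANCES

`MrhAbsData φ φk V red V'' red''` bundles the seven hypotheses of (ABS) for a pair of algebra
homomorphisms `φ : F → F''` (characteristic `0`), `φk : K1 → K2` (residue fields) :
finiteness, `[F'' : F] ≤ [K2 : K1]`, `V` a valuation ring, `ker red ⊇` non-units, `red''` onto,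
`φ V ⊆ V''`, `red'' ∘ φ = φk ∘ red`.  Consequences (for EVERY instance at once) :

* `MrhAbsData.red_norm`      : `red (N_φ g) = N_{φk} (red'' g)`;
* `MrhAbsData.charpoly_zero` : `red'' g = 0` ⟹ `g` is a root of a monic polynomial over `V` of degree
  `[K2 : K1]` with all lower coefficients in `ker red`;
* `MrhAbsData.finrank_eq`    : `[K2 : K1] = [F'' : F]`.

Instances (`k = 𝔸/𝔪`, `ℓ` prime) :
* level `M` (`p ∤ M ℓ`, `ℓ ∤ M`) : `mrh_data_alpha`, `mrh_data_beta` (Gauss ring `grdO`, `grdRed`);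
* level `M p` (`ℓ ∤ M p`), index 1 : `mrh_data_alpha₁`, `mrh_data_beta₁` (`grdO (M p)`, `ttrRed1`,
  upstairs `grdO (M p ℓ)`, `mrhRed1P`);
* level `M p`, index 2 : `mrh_data_alpha₂`, `mrh_data_beta₂` (`ttrV2`, `ttrRed2`, upstairs
  `w''⁻¹ (grdO (M p ℓ))`, `mrhRed1P ∘ w''`) for an automorphism `w''` lifting `w = ttrW`.
-/

set_option autoImplicit false
set_option linter.unusedSectionVars false
set_option linter.unusedVariables false
set_option linter.style.haveILetI false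
set_option synthInstance.maxHeartbeats 400000

noncomputable section

namespace Fermat.Agent.MR

open ModularCurve AlgebraicCurve IsLocalRing Fermat.Agent.S18 Fermat.Agent.S24
  Fermat.Agent.G Fermat.Agent.SS Fermat.Agent.TT

local notation "Qb" => AlgebraicClosure ℚ

/-! ### The package -/

section Package

variable {K F F'' k K1 K2 : Type*} [Field K] [Field F] [Field F''] [Field k] [Field K1] [Field K2]
  [Algebra K F] [Algebra K F''] [Algebra k K1] [Algebra k K2]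

/-- the hypotheses of (ABS) for `φ : F → F''`, `φk : K1 → K2`. -/
structure MrhAbsData (φ : F →ₐ[K] F'') (φk : K1 →ₐ[k] K2) (V : Subring F) (red : ↥V →+* K1)
    (V'' : Subring F'') (red'' : ↥V'' →+* K2) : Prop where
  fin : FiniteAlong K φ
  deg : finrankAlong K φ ≤ finrankAlong k φk
  val : ∀ x : F, x ∈ V ∨ x⁻¹ ∈ V
  ker : ∀ x : ↥V, (x : F)⁻¹ ∉ V → red x = 0
  surj : Function.Surjective red''
  map : ∀ x : F, x ∈ V → φ x ∈ V''
  comp : ∀ (x : F) (hx : x ∈ V), red'' ⟨φ x, map x hx⟩ = φk (red ⟨x, hx⟩)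

variable {φ : F →ₐ[K] F''} {φk : K1 →ₐ[k] K2} {V : Subring F} {red : ↥V →+* K1}
  {V'' : Subring F''} {red'' : ↥V'' →+* K2}

/-- `red (N_φ g) = N_{φk} (red'' g)` -/
theorem MrhAbsData.red_norm (H : MrhAbsData φ φk V red V'' red'') (g : F'') (hg : g ∈ V'') :
    ∃ h : mrhNorm φ g ∈ V, red ⟨mrhNorm φ g, h⟩ = mrhNorm φk (red'' ⟨g, hg⟩) :=
  mrh_red_norm_along φ φk H.fin H.deg V H.val red H.ker V'' red'' H.surj H.map H.comp g hg

/-- an element of `V''` with `red'' g = 0` is a root of a monic polynomial over `V` of degree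
`[K2 : K1]` all of whose lower coefficients lie in the kernel of `red`. -/
theorem MrhAbsData.charpoly_zero (H : MrhAbsData φ φk V red V'' red'') (g : F'') (hg : g ∈ V'')
    (h0 : red'' ⟨g, hg⟩ = 0) :
    ∃ P : Polynomial ↥V, P.Monic ∧ P.natDegree = finrankAlong k φk ∧
      Polynomial.eval₂ (φ.toRingHom.comp V.subtype) g P = 0 ∧
      ∀ i, i < finrankAlong k φk → red (P.coeff i) = 0 :=
  mrh_red_charpoly_zero_along φ φk H.fin H.deg V H.val red H.ker V'' red'' H.surj H.map H.comp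
    g hg h0

/-- `φk` is finite. -/
theorem MrhAbsData.fink (H : MrhAbsData φ φk V red V'' red'') : FiniteAlong k φk := by
  letI := algebraAlong φ
  letI := algebraAlong φk
  haveI : FiniteDimensional F F'' := H.fin
  have hpos : 0 < Module.finrank F F'' := Module.finrank_pos
  exact Module.finite_of_finrank_pos (lt_of_lt_of_le hpos H.deg)

/-- `[K2 : K1] = [F'' : F]` -/
theorem MrhAbsData.finrank_eq (H : MrhAbsData φ φk V red V'' red'') :
    finrankAlong k φk = finrankAlong K φ :=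
  le_antisymm
    (mrhdb_finrankAlong_le φ φk H.fin H.fink V H.val red V'' red'' H.surj H.map H.comp) H.deg

end Package

/-! ### The instances at the level `M` -/

section InstA

variable (M : ℕ) [NeZero M] {p : ℕ} [Fact p.Prime] (ℓ : ℕ) [NeZero ℓ] (A : ValuationSubring Qb)

/-- (ABS) data for `α_ℓ` at the level `M`. -/
theorem mrh_data_alpha (hA : A.LiesOverPrime p) (hℓ : ℓ.Prime) (hℓM : ¬ ℓ ∣ M)
    (hpMℓ : ¬ p ∣ M * ℓ) :
    MrhAbsData (heckeAlphaBar Qb M ℓ) (ssvmdIncl (ResidueField A) M ℓ) (grdO M A) (grdRed M A)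
      (grdO (M * ℓ) A) (grdRed (M * ℓ) A) where
  fin := gff_alpha_finite M ℓ
  deg := by rw [glv_finrank M ℓ hℓ hℓM]; exact mrhd_hdeg M ℓ A hℓ hℓM hpMℓ hA
  val := grdO_mem_or_inv_mem M A (fun h => hpMℓ (Dvd.dvd.mul_right h ℓ)) hA
  ker := fun x hx => by
    by_contra h0
    exact hx (grdl_inv_mem M A x h0)
  surj := fun c => grdl_red_surjective (M * ℓ) A c
  map := fun x hx => (mrh_level_alpha M ℓ A x hx).1
  comp := fun x hx => (mrh_level_alpha M ℓ A x hx).2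

/-- (ABS) data for `β_ℓ` at the level `M`. -/
theorem mrh_data_beta (hA : A.LiesOverPrime p) (hℓ : ℓ.Prime) (hℓM : ¬ ℓ ∣ M)
    (hpMℓ : ¬ p ∣ M * ℓ) :
    MrhAbsData (heckeBetaBar Qb M ℓ) (mrhdbBe (ResidueField A) M ℓ) (grdO M A) (grdRed M A)
      (grdO (M * ℓ) A) (grdRed (M * ℓ) A) where
  fin := gff_beta_finite M ℓ
  deg := by
    haveI : Fact ℓ.Prime := ⟨hℓ⟩
    rw [s35db_finrankAlong_beta M hℓM]
    exact mrhdb_hdeg M A ℓ hℓ hℓM hpMℓ hA
  val := grdO_mem_or_inv_mem M A (fun h => hpMℓ (Dvd.dvd.mul_right h ℓ)) hA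
  ker := fun x hx => by
    by_contra h0
    exact hx (grdl_inv_mem M A x h0)
  surj := fun c => grdl_red_surjective (M * ℓ) A c
  map := fun x hx => (mrh_level_beta M ℓ A x hx).1
  comp := fun x hx => (mrh_level_beta M ℓ A x hx).2

end InstA

/-! ### The instances at the level `M p` -/

section InstB

variable (M : ℕ) [NeZero M] (p ℓ : ℕ) [Fact p.Prime] [NeZero p] [NeZero ℓ]
variable (A : ValuationSubring Qb)

theorem mrh_data_not_dvd_left (hℓM : ¬ ℓ ∣ M * p) : ¬ ℓ ∣ M :=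
  fun h => hℓM (Dvd.dvd.mul_right h p)

theorem mrh_data_not_dvd_mul (hpM : ¬ p ∣ M) (hℓ : ℓ.Prime) (hℓM : ¬ ℓ ∣ M * p) :
    ¬ p ∣ M * ℓ := by
  intro h
  have hp : p.Prime := Fact.out
  rcases (Nat.Prime.dvd_mul hp).1 h with h1 | h1
  · exact hpM h1
  · have : p = ℓ := (Nat.prime_dvd_prime_iff_eq hp hℓ).1 h1
    exact hℓM (this ▸ Dvd.intro_left M rfl)

theorem mrh_data_ker₁ (hA : A.LiesOverPrime p) (x : ↥(grdO (M * p) A))
    (hx : (x : modularFunctionFieldBar (M * p))⁻¹ ∉ grdO (M * p) A) : ttrRed1 M A hA x = 0 := by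
  by_contra h0
  exact hx (grdl_inv_mem (M * p) A x (fun h => h0 ((ttrRed1_eq_zero_iff' M A hA x).2 h)))

/-- (ABS) data for `α_ℓ` at the level `M p`, index 1. -/
theorem mrh_data_alpha₁ (hpM : ¬ p ∣ M) (hA : A.LiesOverPrime p) (hℓ : ℓ.Prime)
    (hℓM : ¬ ℓ ∣ M * p) :
    MrhAbsData (heckeAlphaBar Qb (M * p) ℓ) (ssvmdIncl (ResidueField A) M ℓ) (grdO (M * p) A)
      (ttrRed1 M A hA) (grdO (M * p * ℓ) A) (mrhRed1P M p ℓ A hA) where
  fin := gff_alpha_finite (M * p) ℓ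
  deg := by
    rw [glv_finrank (M * p) ℓ hℓ hℓM]
    exact mrhd_hdeg M ℓ A hℓ (mrh_data_not_dvd_left M p ℓ hℓM)
      (mrh_data_not_dvd_mul M p ℓ hpM hℓ hℓM) hA
  val := ttr_mem_or_inv_mem M A hpM hA
  ker := mrh_data_ker₁ M p A hA
  surj := mrhRed1P_surjective M p ℓ A hA
  map := fun x hx => (mrh_levelP_alpha₁ M p ℓ A hA x hx).1
  comp := fun x hx => (mrh_levelP_alpha₁ M p ℓ A hA x hx).2

/-- (ABS) data for `β_ℓ` at the level `M p`, index 1. -/
theorem mrh_data_beta₁ (hpM : ¬ p ∣ M) (hA : A.LiesOverPrime p) (hℓ : ℓ.Prime)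
    (hℓM : ¬ ℓ ∣ M * p) :
    MrhAbsData (heckeBetaBar Qb (M * p) ℓ) (mrhdbBe (ResidueField A) M ℓ) (grdO (M * p) A)
      (ttrRed1 M A hA) (grdO (M * p * ℓ) A) (mrhRed1P M p ℓ A hA) where
  fin := gff_beta_finite (M * p) ℓ
  deg := by
    haveI : Fact ℓ.Prime := ⟨hℓ⟩
    rw [s35db_finrankAlong_beta (M * p) hℓM]
    exact mrhdb_hdeg M A ℓ hℓ (mrh_data_not_dvd_left M p ℓ hℓM)
      (mrh_data_not_dvd_mul M p ℓ hpM hℓ hℓM) hA
  val := ttr_mem_or_inv_mem M A hpM hA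
  ker := mrh_data_ker₁ M p A hA
  surj := mrhRed1P_surjective M p ℓ A hA
  map := fun x hx => (mrh_levelP_beta₁ M p ℓ A hA x hx).1
  comp := fun x hx => (mrh_levelP_beta₁ M p ℓ A hA x hx).2

variable (w'' : modularFunctionFieldBar (M * p * ℓ) ≃+* modularFunctionFieldBar (M * p * ℓ))

theorem mrh_data_val₂ (hpM : ¬ p ∣ M) (hA : A.LiesOverPrime p)
    (x : modularFunctionFieldBar (M * p)) : x ∈ ttrV2 M A hpM ∨ x⁻¹ ∈ ttrV2 M A hpM := by
  rcases ttr_mem_or_inv_mem M A hpM hA (ttrW M hpM x) with h | h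
  · exact Or.inl h
  · refine Or.inr ?_
    rw [ttrh_mem_V2, map_inv₀]
    exact h

theorem mrh_data_ker₂ (hpM : ¬ p ∣ M) (hA : A.LiesOverPrime p) (x : ↥(ttrV2 M A hpM))
    (hx : (x : modularFunctionFieldBar (M * p))⁻¹ ∉ ttrV2 M A hpM) :
    ttrRed2 M A hpM hA x = 0 := by
  rw [ttrhRed2_apply]
  apply mrh_data_ker₁ M p A hA
  intro h
  apply hx
  rw [ttrh_mem_V2, map_inv₀]
  exact h

theorem mrh_data_surj₂ (hA : A.LiesOverPrime p) :
    Function.Surjective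
      (ttrhRed2 (grdO (M * p * ℓ) A) w'' (mrhRed1P M p ℓ A hA)) := by
  intro c
  obtain ⟨y, hy⟩ := mrhRed1P_surjective M p ℓ A hA c
  have hmem : w''.symm (y : modularFunctionFieldBar (M * p * ℓ)) ∈
      ttrhV2 (grdO (M * p * ℓ) A) w'' := by
    rw [ttrh_mem_V2, RingEquiv.apply_symm_apply]
    exact y.2
  refine ⟨⟨w''.symm (y : modularFunctionFieldBar (M * p * ℓ)), hmem⟩, ?_⟩
  rw [ttrhRed2_apply, ← hy]
  congr 1
  exact Subtype.ext (RingEquiv.apply_symm_apply w'' _)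

/-- (ABS) data for `α_ℓ` at the level `M p`, index 2. -/
theorem mrh_data_alpha₂ (hpM : ¬ p ∣ M) (hA : A.LiesOverPrime p) (hℓ : ℓ.Prime)
    (hℓM : ¬ ℓ ∣ M * p)
    (hα : ∀ x : modularFunctionFieldBar (M * p),
      w'' (heckeAlphaBar Qb (M * p) ℓ x) = heckeAlphaBar Qb (M * p) ℓ (ttrW M hpM x)) :
    MrhAbsData (heckeAlphaBar Qb (M * p) ℓ) (ssvmdIncl (ResidueField A) M ℓ) (ttrV2 M A hpM)
      (ttrRed2 M A hpM hA) (ttrhV2 (grdO (M * p * ℓ) A) w'')
      (ttrhRed2 (grdO (M * p * ℓ) A) w'' (mrhRed1P M p ℓ A hA)) where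
  fin := gff_alpha_finite (M * p) ℓ
  deg := (mrh_data_alpha₁ M p ℓ A hpM hA hℓ hℓM).deg
  val := mrh_data_val₂ M p A hpM hA
  ker := mrh_data_ker₂ M p A hpM hA
  surj := mrh_data_surj₂ M p ℓ A w'' hA
  map := fun x hx => (mrh_levelP_alpha₂ M p ℓ A w'' hpM hA hα x hx).1
  comp := fun x hx => (mrh_levelP_alpha₂ M p ℓ A w'' hpM hA hα x hx).2

/-- (ABS) data for `β_ℓ` at the level `M p`, index 2. -/
theorem mrh_data_beta₂ (hpM : ¬ p ∣ M) (hA : A.LiesOverPrime p) (hℓ : ℓ.Prime)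
    (hℓM : ¬ ℓ ∣ M * p)
    (hβ : ∀ x : modularFunctionFieldBar (M * p),
      w'' (heckeBetaBar Qb (M * p) ℓ x) = heckeBetaBar Qb (M * p) ℓ (ttrW M hpM x)) :
    MrhAbsData (heckeBetaBar Qb (M * p) ℓ) (mrhdbBe (ResidueField A) M ℓ) (ttrV2 M A hpM)
      (ttrRed2 M A hpM hA) (ttrhV2 (grdO (M * p * ℓ) A) w'')
      (ttrhRed2 (grdO (M * p * ℓ) A) w'' (mrhRed1P M p ℓ A hA)) where
  fin := gff_beta_finite (M * p) ℓ
  deg := (mrh_data_beta₁ M p ℓ A hpM hA hℓ hℓM).deg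
  val := mrh_data_val₂ M p A hpM hA
  ker := mrh_data_ker₂ M p A hpM hA
  surj := mrh_data_surj₂ M p ℓ A w'' hA
  map := fun x hx => (mrh_levelP_beta₂ M p ℓ A w'' hpM hA hβ x hx).1
  comp := fun x hx => (mrh_levelP_beta₂ M p ℓ A w'' hpM hA hβ x hx).2

end InstB

end Fermat.Agent.MR
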