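/-
(MR) block `mrh`, sub-leaf (DEG) (prefix `mrhd`, helper18) : SEPARABILITY OF THE LEVEL EXTENSION IN
CHARACTERISTIC `p`.

* `mrhd_sep_tower` (abstract) : `φ : F →ₐ[K] F'`, `φ t = t'`, `F' / K(t')` separable ⟹ `F' / F`
  separable along `φ`;
* **`mrhd_sepAlong`** : `F_k(M ℓ) / F_k(M)` is separable along `ssvmdIncl k M ℓ` (any `ℓ ≥ 1`),
  `k = 𝔸/𝔪` of characteristic `p ∤ M ℓ`;
* `mrhd_sepAlong_char` : the same over any field `k` of characteristic `p ∤ M ℓ`.
-/
import Mathlib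
import Fermat.Agent.MR.Hecke.Deg

set_option autoImplicit false
set_option linter.unusedSectionVars false
set_option linter.unusedVariables false
set_option linter.style.haveILetI false
set_option synthInstance.maxHeartbeats 400000

noncomputable section

namespace Fermat.Agent.MR

open Polynomial ModularCurve AlgebraicCurve IsLocalRing IntermediateField Fermat.Agent.S18
  Fermat.Agent.S24 Fermat.Agent.G Fermat.Agent.SS

local notation "Qb" => AlgebraicClosure ℚ

/-- abstract : separability of the top of a tower `K(t) → F → F'` along `φ : F →ₐ[K] F'`. -/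
theorem mrhd_sep_tower {K F F' : Type*} [Field K] [Field F] [Field F'] [Algebra K F]
    [Algebra K F'] (φ : F →ₐ[K] F') (t : F) (t' : F') (ht : φ t = t')
    (hsep : Algebra.IsSeparable K⟮t'⟯ F') :
    letI := algebraAlong φ
    Algebra.IsSeparable F F' := by
  letI := algebraAlong φ
  have hmap : (K⟮t⟯).map φ = K⟮t'⟯ := by
    rw [IntermediateField.adjoin_map, Set.image_singleton, ht]
  let i : K⟮t⟯ ≃+* K⟮t'⟯ :=
    ((IntermediateField.equivMap K⟮t⟯ φ).trans (IntermediateField.equivOfEq hmap)).toRingEquiv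
  haveI : Algebra.IsSeparable K⟮t⟯ F' :=
    Algebra.IsSeparable.of_equiv_equiv i.symm (RingEquiv.refl F') (by
      ext x
      obtain ⟨y, rfl⟩ := i.surjective x
      rw [RingHom.comp_apply, RingHom.comp_apply, RingEquiv.coe_toRingHom,
        RingEquiv.symm_apply_apply]
      rfl)
  exact Algebra.isSeparable_tower_top_of_isSeparable K⟮t⟯ F F'

/-- **`F_k(M ℓ) / F_k(M)` is separable** along `ssvmdIncl k M ℓ`, over any field `k` of
characteristic `p ∤ M ℓ`. -/
theorem mrhd_sepAlong_char {p : ℕ} [Fact p.Prime] (k : Type*) [Field k] [CharP k p]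
    (M ℓ : ℕ) [NeZero M] [NeZero ℓ] (hpMℓ : ¬ p ∣ M * ℓ) :
    letI := algebraAlong (ssvmdIncl k M ℓ)
    Algebra.IsSeparable (modularFunctionFieldFullC k M) (modularFunctionFieldFullC k (M * ℓ)) := by
  have hsep := s18v_isSepGen_res (ℓ := p) k (M * ℓ) hpMℓ
  exact mrhd_sep_tower (ssvmdIncl k M ℓ) (ssvmdJ k M) _
    (Subtype.ext (ssvmdIncl_coe k M ℓ _)) hsep.separable

/-- **`F_k(M ℓ) / F_k(M)` is separable** along `ssvmdIncl k M ℓ`, `k = 𝔸/𝔪`, `p ∤ M ℓ`. -/
theorem mrhd_sepAlong (M : ℕ) [NeZero M] {p : ℕ} [Fact p.Prime] (A : ValuationSubring Qb)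
    (ℓ : ℕ) [NeZero ℓ] (hpMℓ : ¬ p ∣ M * ℓ) (hA : A.LiesOverPrime p) :
    letI := algebraAlong (ssvmdIncl (ResidueField A) M ℓ)
    Algebra.IsSeparable (modularFunctionFieldFullC (ResidueField A) M)
      (modularFunctionFieldFullC (ResidueField A) (M * ℓ)) := by
  haveI : CharP (ResidueField A) p := s18ac_charP A hA
  exact mrhd_sepAlong_char (p := p) (ResidueField A) M ℓ hpMℓ

/-- `F_k(M ℓ)` is finite over `F_k(M)` along `ssvmdIncl k M ℓ`, in the Prelude form `FiniteAlong` -/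
theorem mrhd_finiteAlong (M : ℕ) [NeZero M] {p : ℕ} [Fact p.Prime] (A : ValuationSubring Qb)
    (ℓ : ℕ) [NeZero ℓ] (hℓ : ℓ.Prime) (hℓM : ¬ ℓ ∣ M) (hpMℓ : ¬ p ∣ M * ℓ)
    (hA : A.LiesOverPrime p) :
    FiniteAlong (ResidueField A) (ssvmdIncl (ResidueField A) M ℓ) := by
  haveI : Fact ℓ.Prime := ⟨hℓ⟩
  exact mrhd_finiteDimensional M A hℓM hpMℓ hA

/-- `ssvmdIncl k M ℓ` is integral (Prelude form, the `hφ` of `restrictAlong`) -/
theorem mrhd_isIntegral_along (M : ℕ) [NeZero M] {p : ℕ} [Fact p.Prime] (A : ValuationSubring Qb)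
    (ℓ : ℕ) [NeZero ℓ] (hℓ : ℓ.Prime) (hℓM : ¬ ℓ ∣ M) (hpMℓ : ¬ p ∣ M * ℓ)
    (hA : A.LiesOverPrime p) :
    (ssvmdIncl (ResidueField A) M ℓ).toRingHom.IsIntegral := by
  letI := algebraAlong (ssvmdIncl (ResidueField A) M ℓ)
  haveI : Module.Finite (modularFunctionFieldFullC (ResidueField A) M)
      (modularFunctionFieldFullC (ResidueField A) (M * ℓ)) := mrhd_finiteAlong M A ℓ hℓ hℓM hpMℓ hA
  intro x
  exact Algebra.IsIntegral.isIntegral (R := modularFunctionFieldFullC (ResidueField A) M) x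

end Fermat.Agent.MR
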